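import Mathlib.RingTheory.OrderOfVanishing.Basic
import Mathlib.RingTheory.DiscreteValuationRing.Basic
import Mathlib.LinearAlgebra.FreeModule.PID
import Mathlib.LinearAlgebra.Matrix.Basis

/-!
# Lengths of quotients over a discrete valuation ring

A submodule `L` of `𝒪 ^ r` contains `r` vectors whose determinant has order at most the length of
`𝒪 ^ r / L`, and a module with `r` generators subject to an `r × r` matrix of relations has length
at most the order of its determinant.
-/

set_option autoImplicit false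

namespace Fermat.Agent.NumCrit

open IsLocalRing Module

variable {𝒪 : Type} [CommRing 𝒪] [IsDomain 𝒪] [IsDiscreteValuationRing 𝒪]

theorem ord_pow_irreducible {ϖ : 𝒪} (hϖ : Irreducible ϖ) (n : ℕ) :
    Ring.ord 𝒪 (ϖ ^ n) = n := by
  rw [Ring.ord, ← Ideal.span_singleton_pow, ← hϖ.maximalIdeal_eq,
    IsDiscreteValuationRing.length_quotient_pow_maximalIdeal]

/-- Zero has infinite order. -/
theorem ord_zero_eq_top : Ring.ord 𝒪 (0 : 𝒪) = ⊤ := by
  by_contra h
  have hfl := Module.length_ne_top_iff.mp h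
  have e : (𝒪 ⧸ Ideal.span {(0 : 𝒪)}) ≃ₗ[𝒪] 𝒪 :=
    Submodule.quotEquivOfEqBot _ (Ideal.span_singleton_eq_bot.mpr rfl)
  have h2 := (isFiniteLength_iff_isNoetherian_isArtinian.mp hfl).2
  have : IsArtinianRing 𝒪 := isArtinian_of_linearEquiv e
  exact IsDiscreteValuationRing.not_isField 𝒪 (IsArtinianRing.isField_of_isDomain 𝒪)

/-- A nonzero element of order `n` generates the `n`-th power of the maximal ideal. -/
theorem exists_ord_eq {a : 𝒪} (ha : a ≠ 0) :
    ∃ n : ℕ, Ring.ord 𝒪 a = n ∧ Ideal.span {a} = maximalIdeal 𝒪 ^ n := by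
  obtain ⟨ϖ, hϖ⟩ := IsDiscreteValuationRing.exists_irreducible 𝒪
  obtain ⟨n, hn⟩ := IsDiscreteValuationRing.ideal_eq_span_pow_irreducible
    (s := Ideal.span {a}) (by simpa using ha) hϖ
  refine ⟨n, ?_, ?_⟩
  · have := ord_pow_irreducible hϖ n
    rw [Ring.ord] at this ⊢
    rwa [hn]
  · rw [hn, hϖ.maximalIdeal_eq, Ideal.span_singleton_pow]

/-- An element `d` of a nonzero ideal `η` whose order is at most the length of `𝒪 / η` generates
`η`. -/
theorem eq_span_singleton_of_ord_le {η : Ideal 𝒪} (hη : η ≠ ⊥) {d : 𝒪} (hd : d ∈ η)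
    (h : Ring.ord 𝒪 d ≤ Module.length 𝒪 (𝒪 ⧸ η)) : η = Ideal.span {d} := by
  obtain ⟨ϖ, hϖ⟩ := IsDiscreteValuationRing.exists_irreducible 𝒪
  obtain ⟨k, hk⟩ := IsDiscreteValuationRing.ideal_eq_span_pow_irreducible (s := η) hη hϖ
  have hlen : Module.length 𝒪 (𝒪 ⧸ η) = k := by
    rw [hk, ← Ring.ord, ord_pow_irreducible hϖ]
  have hd0 : d ≠ 0 := by
    rintro rfl
    rw [ord_zero_eq_top, hlen] at h
    exact absurd h (by simp)
  obtain ⟨n, hn, hspan⟩ := exists_ord_eq hd0
  rw [hn, hlen, Nat.cast_le] at h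
  refine le_antisymm ?_ ((Ideal.span_singleton_le_iff_mem _).mpr hd)
  rw [hspan, hk, hϖ.maximalIdeal_eq, Ideal.span_singleton_pow,
    Ideal.span_singleton_le_span_singleton]
  exact pow_dvd_pow _ h

/-- The order of a product is the sum of the orders, also when a factor vanishes. -/
theorem ord_prod_eq_sum {ι : Type*} (s : Finset ι) (a : ι → 𝒪) :
    Ring.ord 𝒪 (∏ j ∈ s, a j) = ∑ j ∈ s, Ring.ord 𝒪 (a j) := by
  classical
  induction s using Finset.induction_on with
  | empty => simp
  | insert j s hj ih =>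
    rw [Finset.prod_insert hj, Finset.sum_insert hj, ← ih]
    by_cases h : ∏ i ∈ s, a i = 0
    · rw [h, mul_zero, ord_zero_eq_top, add_top]
    · rw [Ring.ord_mul 𝒪 (mem_nonZeroDivisors_of_ne_zero h)]

omit [IsDomain 𝒪] [IsDiscreteValuationRing 𝒪] in
/-- A unit factor does not change the order. -/
theorem ord_unit_mul {u : 𝒪} (hu : IsUnit u) (a : 𝒪) : Ring.ord 𝒪 (u * a) = Ring.ord 𝒪 a := by
  rw [Ring.ord, Ring.ord, Ideal.span_singleton_mul_left_unit hu]

/-- Smith normal form: a basis adapted to a submodule of a free module of finite rank, with the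
length of the quotient. -/
theorem exists_adapted_basis {r : ℕ} (L : Submodule 𝒪 (Fin r → 𝒪)) :
    ∃ (b : Basis (Fin r) 𝒪 (Fin r → 𝒪)) (a : Fin r → 𝒪), (∀ j, a j • b j ∈ L) ∧
      (∀ x ∈ L, ∀ j, a j ∣ b.repr x j) ∧
      Module.length 𝒪 ((Fin r → 𝒪) ⧸ L) = ∑ j, Ring.ord 𝒪 (a j) := by
  classical
  obtain ⟨n, S⟩ := L.smithNormalForm (Pi.basisFun 𝒪 (Fin r))
  let a : Fin r → 𝒪 := Function.extend S.f S.a 0
  have ha_mem : ∀ j, a j • S.bM j ∈ L := by
    intro j
    by_cases hj : ∃ i, S.f i = j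
    · obtain ⟨i, rfl⟩ := hj
      simp only [a, S.f.injective.extend_apply]
      rw [← S.snf]; exact Subtype.mem _
    · simp [a, Function.extend_apply' _ _ _ hj]
  have hdvd : ∀ x ∈ L, ∀ j, a j ∣ S.bM.repr x j := by
    intro x hx j
    by_cases hj : ∃ i, S.f i = j
    · obtain ⟨i, rfl⟩ := hj
      simp only [a, S.f.injective.extend_apply]
      rw [show S.bM.repr x (S.f i) = S.bN.repr (S.a i • ⟨x, hx⟩) i from
        S.repr_apply_embedding_eq_repr_smul ⟨x, hx⟩, map_smul]
      simp
    · rw [show S.bM.repr x j = 0 from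
        S.repr_eq_zero_of_notMem_range ⟨x, hx⟩ fun ⟨i, hi⟩ => hj ⟨i, hi⟩]
      exact dvd_zero _
  let q : (Fin r → 𝒪) →ₗ[𝒪] ∀ j, 𝒪 ⧸ Ideal.span {a j} :=
    LinearMap.pi fun j => (Ideal.span {a j}).mkQ ∘ₗ S.bM.coord j
  have hq : Function.Surjective q := by
    intro y
    choose c hc using fun j => Submodule.mkQ_surjective (Ideal.span {a j}) (y j)
    refine ⟨∑ j, c j • S.bM j, funext fun j => ?_⟩
    rw [← hc j]
    simp only [q, LinearMap.pi_apply, LinearMap.comp_apply, Basis.coord_apply]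
    rw [S.bM.repr_sum_self]
  have hker : LinearMap.ker q = L := by
    refine le_antisymm (fun x hx => ?_) (fun x hx => ?_)
    · rw [← S.bM.sum_repr x]
      refine Submodule.sum_mem _ fun j _ => ?_
      have hj : S.bM.repr x j ∈ Ideal.span {a j} := by
        have := congrFun hx j
        exact Ideal.Quotient.eq_zero_iff_mem.mp (by simpa [q] using this)
      obtain ⟨c, hc⟩ := Ideal.mem_span_singleton'.mp hj
      rw [← hc, mul_smul]
      exact Submodule.smul_mem _ _ (ha_mem j)
    · refine funext fun j => ?_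
      simp only [q, LinearMap.pi_apply, LinearMap.comp_apply, Submodule.mkQ_apply,
        Basis.coord_apply, Pi.zero_apply, Submodule.Quotient.mk_eq_zero, Ideal.mem_span_singleton]
      exact hdvd x hx j
  refine ⟨S.bM, a, ha_mem, hdvd, ?_⟩
  rw [← hker, (q.quotKerEquivOfSurjective hq).length_eq, Module.length_pi_of_fintype]
  rfl

omit [IsDomain 𝒪] [IsDiscreteValuationRing 𝒪] in
theorem isUnit_det_of_basis {r : ℕ} (b : Basis (Fin r) 𝒪 (Fin r → 𝒪)) :
    IsUnit (Matrix.of fun j => b j).det := by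
  have h1 : ((Pi.basisFun 𝒪 (Fin r)).toMatrix b).det * (b.toMatrix (Pi.basisFun 𝒪 (Fin r))).det
      = 1 := by
    rw [← Matrix.det_mul, Module.Basis.toMatrix_mul_toMatrix_flip, Matrix.det_one]
  have h2 : (Pi.basisFun 𝒪 (Fin r)).toMatrix b = (Matrix.of fun j => b j).transpose := by
    ext i j; simp [Module.Basis.toMatrix_apply]
  rw [h2, Matrix.det_transpose] at h1
  exact IsUnit.of_mul_eq_one _ h1

/-- Inside a submodule `L` of a free module of rank `r` one finds `r` vectors whose determinant has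
order at most the length of the quotient. -/
theorem exists_det_ord_le {r : ℕ} (L : Submodule 𝒪 (Fin r → 𝒪)) :
    ∃ v : Fin r → (Fin r → 𝒪), (∀ i, v i ∈ L) ∧
      Ring.ord 𝒪 (Matrix.of v).det ≤ Module.length 𝒪 ((Fin r → 𝒪) ⧸ L) := by
  obtain ⟨b, a, ha_mem, -, hlen⟩ := exists_adapted_basis L
  refine ⟨fun j => a j • b j, ha_mem, ?_⟩
  have hdet : (Matrix.of fun j => a j • b j).det = (Matrix.of fun j => b j).det * ∏ j, a j := by
    rw [mul_comm]
    exact Matrix.det_mul_column a (Matrix.of fun j => b j)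
  rw [hlen, hdet, ord_unit_mul (isUnit_det_of_basis b)]
  exact (ord_prod_eq_sum _ _).le

omit [IsDomain 𝒪] [IsDiscreteValuationRing 𝒪] in
theorem ord_le_of_dvd {a b : 𝒪} (h : a ∣ b) : Ring.ord 𝒪 a ≤ Ring.ord 𝒪 b :=
  Module.length_le_of_surjective
    (Submodule.factor (Ideal.span_singleton_le_span_singleton.mpr h))
    (Submodule.factor_surjective _)

/-- The order of a product is at least the sum of the orders. -/
theorem sum_ord_le {ι : Type*} (s : Finset ι) (a : ι → 𝒪) :
    ∑ j ∈ s, Ring.ord 𝒪 (a j) ≤ Ring.ord 𝒪 (∏ j ∈ s, a j) :=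
  (ord_prod_eq_sum s a).ge

/-- A module with `r` generators satisfying the `r` relations given by the rows of `A` has length
at most the order of `det A`. -/
theorem length_le_ord_det {r : ℕ} {M : Type*} [AddCommGroup M] [Module 𝒪 M] (g : Fin r → M)
    (hg : Submodule.span 𝒪 (Set.range g) = ⊤) (A : Matrix (Fin r) (Fin r) 𝒪)
    (hA : ∀ i, ∑ j, A i j • g j = 0) : Module.length 𝒪 M ≤ Ring.ord 𝒪 A.det := by
  let L : Submodule 𝒪 (Fin r → 𝒪) := Submodule.span 𝒪 (Set.range fun i => A i)
  have hL : L ≤ LinearMap.ker (Fintype.linearCombination 𝒪 g) := by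
    rw [Submodule.span_le]
    rintro _ ⟨i, rfl⟩
    simpa [Fintype.linearCombination_apply] using hA i
  have hsurj : Function.Surjective (L.liftQ _ hL) := by
    intro m
    obtain ⟨c, hc⟩ := (Submodule.mem_span_range_iff_exists_fun 𝒪).mp
      (hg ▸ Submodule.mem_top : m ∈ Submodule.span 𝒪 (Set.range g))
    exact ⟨Submodule.Quotient.mk c, by simpa [Fintype.linearCombination_apply] using hc⟩
  refine (Module.length_le_of_surjective _ hsurj).trans ?_
  obtain ⟨b, a, -, hdvd, hlen⟩ := exists_adapted_basis L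
  rw [hlen]
  refine (sum_ord_le _ _).trans (ord_le_of_dvd ?_)
  choose c hc using fun i j => hdvd (A i) (Submodule.subset_span ⟨i, rfl⟩) j
  have hA' : A = Matrix.of c * Matrix.of (fun j => a j • b j) := by
    ext i k
    have h := congrFun (b.sum_repr (A i)) k
    rw [Matrix.mul_apply, ← h, Finset.sum_apply]
    refine Finset.sum_congr rfl fun j _ => ?_
    rw [hc i j]
    simp [mul_assoc, mul_left_comm]
  rw [hA', Matrix.det_mul]
  have : (Matrix.of fun j => a j • b j).det = (∏ j, a j) * (Matrix.of fun j => b j).det :=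
    Matrix.det_mul_column a (Matrix.of fun j => b j)
  rw [this]
  exact dvd_mul_of_dvd_right (dvd_mul_right _ _) _

end Fermat.Agent.NumCrit
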