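import Mathlib.RingTheory.MvPowerSeries.Equiv
import Mathlib.RingTheory.MvPowerSeries.Evaluation
import Mathlib.RingTheory.AdicCompletion.Topology
import Mathlib.Topology.Algebra.Nonarchimedean.AdicTopology
import Mathlib.RingTheory.LocalRing.MaximalIdeal.Basic

/-!
# Power series rings over a discrete valuation ring and their points

* a homomorphism `𝒪⟦X₁, …, X_r⟧ → R` sending the variables to prescribed elements of the maximal
  ideal of a complete local `𝒪`-algebra `R`;
* the ideal of the variables is the kernel of the constant coefficient.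
-/

set_option autoImplicit false

namespace Fermat.Agent.NumCrit

open IsLocalRing

section Lift

variable {𝒪 R : Type} [CommRing 𝒪] [CommRing R] [IsLocalRing R]
  [IsAdicComplete (maximalIdeal R) R] [Algebra 𝒪 R]

/-- There is an algebra homomorphism from the power series ring sending the variables to any
given elements of the maximal ideal of a complete local algebra. -/
theorem exists_algHom_mvPowerSeries {r : ℕ} (a : Fin r → R) (ha : ∀ i, a i ∈ maximalIdeal R) :
    ∃ ψ : MvPowerSeries (Fin r) 𝒪 →ₐ[𝒪] R, ∀ i, ψ (MvPowerSeries.X i) = a i := by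
  let _ : UniformSpace 𝒪 := ⊥
  have : DiscreteTopology 𝒪 := ⟨rfl⟩
  have : IsUniformAddGroup 𝒪 := inferInstance
  let _ : WithIdeal R := ⟨maximalIdeal R⟩
  have hadic : IsAdic (maximalIdeal R) := rfl
  obtain ⟨hcs, ht2⟩ := hadic.isAdicComplete_iff.mp inferInstance
  have : ContinuousSMul 𝒪 R :=
    continuousSMul_of_algebraMap 𝒪 R continuous_of_discreteTopology
  have hev : MvPowerSeries.HasEval a :=
    { hpow := fun i => hadic.hasBasis_nhds_zero.tendsto_right_iff.mpr fun n _ => by
        filter_upwards [Filter.eventually_ge_atTop n] with k hk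
        exact Ideal.pow_le_pow_right hk (Ideal.pow_mem_pow (ha i) k)
      tendsto_zero := by simp }
  exact ⟨MvPowerSeries.aeval hev, fun i => by
    rw [MvPowerSeries.coe_aeval hev, MvPowerSeries.eval₂_X]⟩

end Lift

section Vars

variable {𝒪 : Type} [CommRing 𝒪]

/-- Every power series minus its constant term lies in the ideal generated by the variables. -/
theorem sub_C_mem_span_X : ∀ {r : ℕ} (f : MvPowerSeries (Fin r) 𝒪),
    f - MvPowerSeries.C (MvPowerSeries.constantCoeff f) ∈
      Ideal.span (Set.range (MvPowerSeries.X : Fin r → MvPowerSeries (Fin r) 𝒪)) := by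
  intro r
  induction r with
  | zero =>
    intro f
    convert Ideal.zero_mem _
    rw [sub_eq_zero]
    exact ((MvPowerSeries.isEmptyEquiv (Fin 0) 𝒪).symm_apply_apply f).symm
  | succ r ih =>
    intro f
    let e := MvPowerSeries.finSuccEquiv 𝒪 r
    set g := f - MvPowerSeries.C (MvPowerSeries.constantCoeff f) with hg
    set J := Ideal.span (Set.range (MvPowerSeries.X : Fin (r+1) → MvPowerSeries (Fin (r+1)) 𝒪))
    obtain ⟨k, hk⟩ : PowerSeries.X ∣ e g - PowerSeries.C (PowerSeries.constantCoeff (e g)) :=
      PowerSeries.X_dvd_iff.mpr (by simp)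
    have h0 : MvPowerSeries.constantCoeff (PowerSeries.constantCoeff (e g)) = 0 := by
      have : PowerSeries.coeff 0 (e g) = PowerSeries.constantCoeff (e g) :=
        PowerSeries.coeff_zero_eq_constantCoeff_apply _
      rw [← MvPowerSeries.coeff_zero_eq_constantCoeff_apply, ← this,
        MvPowerSeries.coeff_coeff_finSuccEquiv]
      simp [hg]
    have h1 := ih (PowerSeries.constantCoeff (e g))
    rw [h0, map_zero, sub_zero] at h1
    have h2 : e g ∈ J.map (e : MvPowerSeries (Fin (r+1)) 𝒪 →+*
        PowerSeries (MvPowerSeries (Fin r) 𝒪)) := by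
      rw [show e g = PowerSeries.X * k + PowerSeries.C (PowerSeries.constantCoeff (e g)) by
        rw [← hk, sub_add_cancel]]
      have hX : ∀ i, e (MvPowerSeries.X i) ∈ J.map (e : MvPowerSeries (Fin (r+1)) 𝒪 →+*
          PowerSeries (MvPowerSeries (Fin r) 𝒪)) := fun i =>
        Ideal.mem_map_of_mem _ (Ideal.subset_span ⟨i, rfl⟩)
      refine add_mem (Ideal.mul_mem_right _ _ (by simpa [e] using hX 0)) ?_
      have hle : Ideal.span (Set.range (MvPowerSeries.X : Fin r → MvPowerSeries (Fin r) 𝒪)) ≤
          (J.map (e : MvPowerSeries (Fin (r+1)) 𝒪 →+*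
            PowerSeries (MvPowerSeries (Fin r) 𝒪))).comap PowerSeries.C := by
        rw [Ideal.span_le]
        rintro _ ⟨i, rfl⟩
        simpa [e] using hX i.succ
      exact hle h1
    obtain ⟨y, hy, hye⟩ := (Ideal.mem_map_of_equiv (e.toRingEquiv) _).mp h2
    rwa [← e.injective hye]

/-- The ideal of the variables consists of the series without constant term. -/
theorem mem_span_X_iff {r : ℕ} {f : MvPowerSeries (Fin r) 𝒪} :
    f ∈ Ideal.span (Set.range (MvPowerSeries.X : Fin r → MvPowerSeries (Fin r) 𝒪)) ↔
      MvPowerSeries.constantCoeff f = 0 := by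
  refine ⟨fun hf => ?_, fun hf => by simpa [hf] using sub_C_mem_span_X f⟩
  have : Ideal.span (Set.range (MvPowerSeries.X : Fin r → MvPowerSeries (Fin r) 𝒪)) ≤
      RingHom.ker (MvPowerSeries.constantCoeff (σ := Fin r) (R := 𝒪)) := by
    rw [Ideal.span_le]
    rintro _ ⟨i, rfl⟩
    simp
  exact this hf

end Vars

end Fermat.Agent.NumCrit
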