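import Mathlib.RingTheory.Ideal.AssociatedPrime.Finiteness
import Mathlib.RingTheory.Ideal.AssociatedPrime.Localization
import Mathlib.RingTheory.Ideal.KrullsHeightTheorem
import Mathlib.RingTheory.LocalRing.MaximalIdeal.Basic
import Mathlib.RingTheory.Nakayama
import Mathlib.RingTheory.Regular.RegularSequence
import Mathlib.Tactic.LinearCombination

/-!
# Complete intersections have simple socle

Let `Q` be a Noetherian local ring with maximal ideal `m`, let `I` be an ideal, let `xs` be a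
sequence in `m` which is regular modulo `I`, and assume that `m` is the only prime containing
`I + (xs)`. If `fs` is another sequence in `m` of the same length such that `m` is the only prime
containing `I + (fs)`, then `fs` is regular modulo `I`, and if the socle of `Q / (I + (xs))` is
simple then so is the socle of `Q / (I + (fs))`.

The proof is elementary: one exchanges one element at a time, using a sufficiently generic element.
-/

set_option autoImplicit false

namespace Fermat.Agent.NumCrit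

open IsLocalRing

variable {Q : Type*} [CommRing Q]

/-- `y` is a nonzerodivisor modulo `I`. -/
def RegMod (I : Ideal Q) (y : Q) : Prop := ∀ a, y * a ∈ I → a ∈ I

/-- The sequence `l` is regular modulo `I` (weakly). -/
def RegSeq : Ideal Q → List Q → Prop
  | _, [] => True
  | I, a :: l => RegMod I a ∧ RegSeq (I ⊔ Ideal.span {a}) l

/-- The empty sequence is regular. -/
theorem regSeq_nil (I : Ideal Q) : RegSeq I [] := trivial

theorem regSeq_cons {I : Ideal Q} {a : Q} {l : List Q} :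
    RegSeq I (a :: l) ↔ RegMod I a ∧ RegSeq (I ⊔ Ideal.span {a}) l := Iff.rfl

theorem regSeq_append : ∀ {I : Ideal Q} {l l' : List Q},
    RegSeq I (l ++ l') ↔ RegSeq I l ∧ RegSeq (I ⊔ Ideal.ofList l) l'
  | I, [], l' => by simp [regSeq_nil]
  | I, a :: l, l' => by
    rw [List.cons_append, regSeq_cons, regSeq_cons, regSeq_append, Ideal.ofList_cons, and_assoc,
      sup_assoc]

/-- Regularity of a sequence extended by one element. -/
theorem regSeq_concat {I : Ideal Q} {l : List Q} {y : Q} :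
    RegSeq I (l ++ [y]) ↔ RegSeq I l ∧ RegMod (I ⊔ Ideal.ofList l) y := by
  simp [regSeq_append, regSeq_cons, regSeq_nil]

variable [IsLocalRing Q]

/-- The socle of `Q / I` is simple (or zero). -/
def SimpleSocle (I : Ideal Q) : Prop :=
  ∀ a b, (∀ t ∈ maximalIdeal Q, t * a ∈ I) → (∀ t ∈ maximalIdeal Q, t * b ∈ I) → a ∉ I →
    ∃ c, b - c * a ∈ I

/-- The only prime ideal that may contain `I` is the maximal ideal. -/
def OnlyMax (I : Ideal Q) : Prop :=
  ∀ P : Ideal Q, P.IsPrime → I ≤ P → P = maximalIdeal Q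

/-- `OnlyMax` passes to larger ideals. -/
theorem OnlyMax.mono {I J : Ideal Q} (h : OnlyMax I) (hIJ : I ≤ J) : OnlyMax J :=
  fun P hP hJP => h P hP (hIJ.trans hJP)

/-- The residue field has simple socle. -/
theorem simpleSocle_maximalIdeal : SimpleSocle (maximalIdeal Q) := by
  intro a b _ _ ha
  obtain ⟨u, hu⟩ := notMem_maximalIdeal.mp ha
  exact ⟨b * ↑u⁻¹, by rw [← hu, mul_assoc, Units.inv_mul, mul_one, sub_self]; exact zero_mem _⟩

/-- Exchanging the last element of a regular sequence preserves simplicity of the socle. -/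
theorem SimpleSocle.exchange {I : Ideal Q} {y z : Q} (hy : y ∈ maximalIdeal Q)
    (hyr : RegMod I y) (hzr : RegMod I z)
    (h : SimpleSocle (I ⊔ Ideal.span {y})) : SimpleSocle (I ⊔ Ideal.span {z}) := by
  have key : ∀ a, (∀ t ∈ maximalIdeal Q, t * a ∈ I ⊔ Ideal.span {z}) →
      ∃ a', y * a - z * a' ∈ I ∧ (∀ t ∈ maximalIdeal Q, t * a' ∈ I ⊔ Ideal.span {y}) ∧
        (a' ∈ I ⊔ Ideal.span {y} → a ∈ I ⊔ Ideal.span {z}) := by
    intro a ha
    obtain ⟨i, hi, w, hw, hiw⟩ := Submodule.mem_sup.mp (ha y hy)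
    obtain ⟨a', rfl⟩ := Ideal.mem_span_singleton'.mp hw
    have h0 : y * a - z * a' ∈ I := by
      rw [show y * a - z * a' = i by linear_combination -hiw]; exact hi
    refine ⟨a', h0, ?_, ?_⟩
    · intro t ht
      obtain ⟨j, hj, v, hv, hjv⟩ := Submodule.mem_sup.mp (ha t ht)
      obtain ⟨e, rfl⟩ := Ideal.mem_span_singleton'.mp hv
      have : z * (t * a' - y * e) ∈ I := by
        rw [show z * (t * a' - y * e) = y * j - t * (y * a - z * a') by
          linear_combination -y * hjv]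
        exact sub_mem (I.mul_mem_left _ hj) (I.mul_mem_left _ h0)
      exact Submodule.mem_sup.mpr ⟨_, hzr _ this, e * y,
        Ideal.mem_span_singleton'.mpr ⟨e, rfl⟩, by ring⟩
    · intro ha'
      obtain ⟨j, hj, v, hv, hjv⟩ := Submodule.mem_sup.mp ha'
      obtain ⟨e, rfl⟩ := Ideal.mem_span_singleton'.mp hv
      have : y * (a - z * e) ∈ I := by
        rw [show y * (a - z * e) = (y * a - z * a') + z * j by linear_combination (-z) * hjv]
        exact add_mem h0 (I.mul_mem_left _ hj)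
      exact Submodule.mem_sup.mpr ⟨_, hyr _ this, e * z,
        Ideal.mem_span_singleton'.mpr ⟨e, rfl⟩, by ring⟩
  intro a b ha hb hne
  obtain ⟨a', ha0, ha1, ha2⟩ := key a ha
  obtain ⟨b', hb0, hb1, -⟩ := key b hb
  obtain ⟨c, hc⟩ := h a' b' ha1 hb1 fun h' => hne (ha2 h')
  refine ⟨c, ?_⟩
  obtain ⟨j, hj, v, hv, hjv⟩ := Submodule.mem_sup.mp hc
  obtain ⟨e, rfl⟩ := Ideal.mem_span_singleton'.mp hv
  have : y * ((b - c * a) - z * e) ∈ I := by
    rw [show y * ((b - c * a) - z * e) = (y * b - z * b') - c * (y * a - z * a') + z * j by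
      linear_combination (-z) * hjv]
    exact add_mem (sub_mem hb0 (I.mul_mem_left _ ha0)) (I.mul_mem_left _ hj)
  exact Submodule.mem_sup.mpr ⟨_, hyr _ this, e * z,
    Ideal.mem_span_singleton'.mpr ⟨e, rfl⟩, by ring⟩

variable [IsNoetherianRing Q]

theorem RegMod.of_swap {I : Ideal Q} {a b : Q} (ha : a ∈ maximalIdeal Q) (har : RegMod I a)
    (hbr : RegMod (I ⊔ Ideal.span {a}) b) :
    RegMod I b ∧ RegMod (I ⊔ Ideal.span {b}) a := by
  have hb : RegMod I b := by
    let S : Ideal Q := I.colon {b}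
    have hmem : ∀ x, x ∈ S ↔ b * x ∈ I := fun x => by
      rw [Submodule.mem_colon_singleton, smul_eq_mul, mul_comm]
    have hle : S ≤ I ⊔ maximalIdeal Q • S := by
      intro x hx
      rw [hmem] at hx
      obtain ⟨i, hi, v, hv, hiv⟩ := Submodule.mem_sup.mp (hbr x (Ideal.mem_sup_left hx))
      obtain ⟨e, rfl⟩ := Ideal.mem_span_singleton'.mp hv
      have hea : a * (b * e) ∈ I := by
        rw [show a * (b * e) = b * x - b * i by linear_combination b * hiv]
        exact sub_mem hx (I.mul_mem_left _ hi)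
      rw [← hiv, mul_comm e a]
      exact Submodule.add_mem_sup hi (Submodule.smul_mem_smul ha ((hmem e).mpr (har _ hea)))
    intro x hx
    exact Submodule.le_of_le_smul_of_le_jacobson_bot (IsNoetherian.noetherian S)
      (maximalIdeal_le_jacobson _) hle ((hmem x).mpr hx)
  refine ⟨hb, fun x hx => ?_⟩
  obtain ⟨i, hi, v, hv, hiv⟩ := Submodule.mem_sup.mp hx
  obtain ⟨e, rfl⟩ := Ideal.mem_span_singleton'.mp hv
  have he : b * e ∈ I ⊔ Ideal.span {a} :=
    Submodule.mem_sup.mpr ⟨-i, neg_mem hi, x * a, Ideal.mem_span_singleton'.mpr ⟨x, rfl⟩,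
      by linear_combination -hiv⟩
  obtain ⟨i', hi', v, hv, hiv'⟩ := Submodule.mem_sup.mp (hbr e he)
  obtain ⟨g, rfl⟩ := Ideal.mem_span_singleton'.mp hv
  have : a * (x - b * g) ∈ I := by
    rw [show a * (x - b * g) = i + b * i' by linear_combination -hiv - b * hiv']
    exact add_mem hi (I.mul_mem_left _ hi')
  exact Submodule.mem_sup.mpr ⟨_, har _ this, g * b,
    Ideal.mem_span_singleton'.mpr ⟨g, rfl⟩, by ring⟩

/-- Regular sequences in the maximal ideal may be permuted. -/
theorem RegSeq.perm {l l' : List Q} (h : l.Perm l') :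
    ∀ {I : Ideal Q}, (∀ a ∈ l, a ∈ maximalIdeal Q) → RegSeq I l → RegSeq I l' := by
  induction h with
  | nil => intro I _ h; exact h
  | cons a _ ih =>
    intro I hm h
    exact ⟨h.1, ih (fun b hb => hm b (List.mem_cons_of_mem _ hb)) h.2⟩
  | swap a b l =>
    intro I hm h
    obtain ⟨hb, ha, hl⟩ := h
    obtain ⟨ha', hb'⟩ := hb.of_swap (hm b List.mem_cons_self) ha
    refine ⟨ha', hb', ?_⟩
    rwa [sup_assoc, sup_comm (Ideal.span {a}), ← sup_assoc]
  | trans h₁ _ ih₁ ih₂ =>
    intro I hm h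
    exact ih₂ (fun b hb => hm b (h₁.mem_iff.mpr hb)) (ih₁ hm h)

omit [IsLocalRing Q] in
/-- An element regular modulo `J` avoids the associated primes of `Q / J`. -/
theorem RegMod.notMem_associatedPrime {J P : Ideal Q} {y : Q} (h : RegMod J y)
    (hP : P ∈ associatedPrimes Q (Q ⧸ J)) : y ∉ P := fun hy => by
  have hyz : y ∈ ⋃ p ∈ associatedPrimes Q (Q ⧸ J), (p : Set Q) := Set.mem_biUnion hP hy
  rw [biUnion_associatedPrimes_eq_zero_divisors] at hyz
  obtain ⟨m, hm0, hm⟩ := hyz
  obtain ⟨m, rfl⟩ := Ideal.Quotient.mk_surjective m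
  exact hm0 (Ideal.Quotient.eq_zero_iff_mem.mpr (h m (Ideal.Quotient.eq_zero_iff_mem.mp hm)))

/-- If an element of the maximal ideal is regular modulo `J`, then so is every element `f` such
that only the maximal ideal contains `J + (f)`. -/
theorem RegMod.of_onlyMax {J : Ideal Q} {y f : Q} (hy : y ∈ maximalIdeal Q) (hyr : RegMod J y)
    (h : OnlyMax (J ⊔ Ideal.span {f})) : RegMod J f := by
  intro x hx
  by_contra hxJ
  have hx0 : (Ideal.Quotient.mk J x : Q ⧸ J) ≠ 0 := fun h0 =>
    hxJ (Ideal.Quotient.eq_zero_iff_mem.mp h0)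
  obtain ⟨P, hP, hle⟩ := exists_le_isAssociatedPrime_of_isNoetherianRing Q
    (Ideal.Quotient.mk J x) hx0
  have hJP : J ≤ P := fun a ha => hle (by
    rw [Submodule.mem_colon_singleton, Submodule.mem_bot]
    show Ideal.Quotient.mk J (a * x) = 0
    exact Ideal.Quotient.eq_zero_iff_mem.mpr (J.mul_mem_right _ ha))
  have hfP : f ∈ P := hle (by
    rw [Submodule.mem_colon_singleton, Submodule.mem_bot]
    show Ideal.Quotient.mk J (f * x) = 0
    exact Ideal.Quotient.eq_zero_iff_mem.mpr hx)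
  have hPm : P = maximalIdeal Q :=
    h P hP.isPrime (sup_le hJP ((Ideal.span_singleton_le_iff_mem P).mpr hfP))
  exact hyr.notMem_associatedPrime hP (hPm ▸ hy)

/-- Krull: if only the maximal ideal contains `J + (f)`, then a prime strictly bigger than a prime
over `J` is maximal. -/
theorem eq_maximalIdeal_of_onlyMax {J P₀ P : Ideal Q} [P₀.IsPrime] [P.IsPrime] {f : Q}
    (hf : f ∈ maximalIdeal Q) (h : OnlyMax (J ⊔ Ideal.span {f})) (hJ : J ≤ P₀) (hlt : P₀ < P) :
    P = maximalIdeal Q := by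
  by_contra hne
  have hPm : P < maximalIdeal Q :=
    lt_of_le_of_ne (IsLocalRing.le_maximalIdeal (Ideal.IsPrime.ne_top inferInstance)) hne
  have hP₀m : P₀ ≤ maximalIdeal Q := (hlt.trans hPm).le
  have hmin : maximalIdeal Q ∈ (P₀ ⊔ Ideal.span {f}).minimalPrimes := by
    refine ⟨⟨(maximalIdeal.isMaximal Q).isPrime,
      sup_le hP₀m ((Ideal.span_singleton_le_iff_mem _).mpr hf)⟩, fun R ⟨hR, hle⟩ _ => ?_⟩
    exact (h R hR ((sup_le_sup_right hJ _).trans hle)).ge
  have h1 := Ideal.map_height_le_one_of_mem_minimalPrimes hmin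
  have hs : Function.Surjective (Ideal.Quotient.mk P₀) := Ideal.Quotient.mk_surjective
  have : (P.map (Ideal.Quotient.mk P₀)).IsPrime :=
    Ideal.map_isPrime_of_surjective hs (by rw [Ideal.mk_ker]; exact hlt.le)
  have : ((maximalIdeal Q).map (Ideal.Quotient.mk P₀)).IsPrime :=
    Ideal.map_isPrime_of_surjective hs (by rw [Ideal.mk_ker]; exact hP₀m)
  have hcomap : ∀ R : Ideal Q, P₀ ≤ R →
      (R.map (Ideal.Quotient.mk P₀)).comap (Ideal.Quotient.mk P₀) = R := fun R hR => by
    rw [Ideal.comap_map_of_surjective _ hs, ← RingHom.ker_eq_comap_bot, Ideal.mk_ker]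
    exact sup_eq_left.mpr hR
  have h01 : (⊥ : Ideal (Q ⧸ P₀)) < P.map (Ideal.Quotient.mk P₀) := by
    refine bot_lt_iff_ne_bot.mpr fun h0 => hlt.ne ?_
    rw [← hcomap P hlt.le, h0, ← RingHom.ker_eq_comap_bot, Ideal.mk_ker]
  have h12 : P.map (Ideal.Quotient.mk P₀) < (maximalIdeal Q).map (Ideal.Quotient.mk P₀) := by
    refine lt_of_le_of_ne (Ideal.map_mono hPm.le) fun h0 => hPm.ne ?_
    rw [← hcomap P hlt.le, h0, hcomap _ hP₀m]
  have e1 := Ideal.height_add_one_le_of_lt_of_isPrime h01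
  have e2 := Ideal.height_add_one_le_of_lt_of_isPrime h12
  rw [Ideal.height_bot, zero_add] at e1
  have : (2 : ℕ∞) ≤ 1 :=
    calc (2 : ℕ∞) = 1 + 1 := by norm_num
      _ ≤ (P.map (Ideal.Quotient.mk P₀)).height + 1 := by gcongr
      _ ≤ 1 := e2.trans h1
  exact absurd this (by norm_num)

/-- A generic element of the maximal ideal. -/
theorem exists_generic {I J K : Ideal Q} {x₁ x₂ f : Q} (hx₁ : x₁ ∈ maximalIdeal Q)
    (hx₁r : RegMod I x₁) (hx₂ : x₂ ∈ maximalIdeal Q) (hx₂r : RegMod K x₂)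
    (hf : f ∈ maximalIdeal Q) (hJf : OnlyMax (J ⊔ Ideal.span {f})) :
    ∃ y ∈ maximalIdeal Q, RegMod I y ∧ RegMod K y ∧ OnlyMax (J ⊔ Ideal.span {y}) := by
  classical
  let s : Set (Ideal Q) := associatedPrimes Q (Q ⧸ I) ∪ associatedPrimes Q (Q ⧸ K) ∪
    {P ∈ J.minimalPrimes | P ≠ maximalIdeal Q}
  have hfin : s.Finite := ((associatedPrimes.finite Q _).union (associatedPrimes.finite Q _)).union
    (J.finite_minimalPrimes_of_isNoetherianRing.subset fun P hP => hP.1)
  have hprime : ∀ P ∈ s, P.IsPrime := by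
    rintro P ((hP | hP) | hP)
    · exact hP.isPrime
    · exact hP.isPrime
    · exact hP.1.1.1
  have hne : ¬ ((maximalIdeal Q : Set Q) ⊆ ⋃ P ∈ s, (P : Set Q)) := by
    rw [Ideal.subset_union_prime_finite hfin ⊥ ⊥ fun P hP _ _ => hprime P hP]
    rintro ⟨P, hP, hle⟩
    rcases hP with (hP | hP) | hP
    · exact hx₁r.notMem_associatedPrime hP (hle hx₁)
    · exact hx₂r.notMem_associatedPrime hP (hle hx₂)
    · exact hP.2 (le_antisymm (IsLocalRing.le_maximalIdeal hP.1.1.1.ne_top) hle)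
  obtain ⟨y, hy, hys⟩ := Set.not_subset.mp hne
  have hreg : ∀ L : Ideal Q, (∀ P ∈ associatedPrimes Q (Q ⧸ L), y ∉ P) → RegMod L y := by
    intro L hL a ha
    by_contra haL
    have : y ∈ ⋃ p ∈ associatedPrimes Q (Q ⧸ L), (p : Set Q) := by
      rw [biUnion_associatedPrimes_eq_zero_divisors]
      exact ⟨Ideal.Quotient.mk L a, fun h0 => haL (Ideal.Quotient.eq_zero_iff_mem.mp h0),
        Ideal.Quotient.eq_zero_iff_mem.mpr ha⟩
    obtain ⟨P, hP, hyP⟩ := Set.mem_iUnion₂.mp this
    exact hL P hP hyP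
  refine ⟨y, hy, hreg I fun P hP hyP => hys (Set.mem_biUnion (Or.inl (Or.inl hP)) hyP),
    hreg K fun P hP hyP => hys (Set.mem_biUnion (Or.inl (Or.inr hP)) hyP), fun P hP hle => ?_⟩
  rw [sup_le_iff, Ideal.span_singleton_le_iff_mem] at hle
  obtain ⟨P₀, hP₀, hP₀le⟩ := Ideal.exists_minimalPrimes_le hle.1
  by_cases h0 : P₀ = maximalIdeal Q
  · exact le_antisymm (IsLocalRing.le_maximalIdeal hP.ne_top) (h0 ▸ hP₀le)
  · have := hP₀.1.1
    refine eq_maximalIdeal_of_onlyMax hf hJf hP₀.1.2 (lt_of_le_of_ne hP₀le fun e => ?_)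
    exact hys (Set.mem_biUnion (Or.inr ⟨hP₀, h0⟩) (e ▸ hle.2))

/-- Systems of parameters of a complete intersection are regular and have simple socle. -/
theorem regSeq_and_simpleSocle : ∀ (n : ℕ) (I : Ideal Q) (xs fs : List Q),
    xs.length = n → fs.length = n → (∀ a ∈ xs, a ∈ maximalIdeal Q) →
    (∀ a ∈ fs, a ∈ maximalIdeal Q) → RegSeq I xs → OnlyMax (I ⊔ Ideal.ofList xs) →
    OnlyMax (I ⊔ Ideal.ofList fs) →
    RegSeq I fs ∧ (SimpleSocle (I ⊔ Ideal.ofList xs) → SimpleSocle (I ⊔ Ideal.ofList fs)) := by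
  intro n
  induction n with
  | zero =>
    intro I xs fs hx hf _ _ _ _ _
    rw [List.length_eq_zero_iff] at hx hf
    subst hx hf
    exact ⟨regSeq_nil _, id⟩
  | succ n ih =>
    intro I xs fs hxl hfl hxm hfm hxr hxo hfo
    obtain rfl | ⟨xs, xl, rfl⟩ := xs.eq_nil_or_concat
    · simp at hxl
    obtain rfl | ⟨fs, fl, rfl⟩ := fs.eq_nil_or_concat
    · simp at hfl
    simp only [List.concat_eq_append] at *
    simp only [List.length_append, List.length_singleton, Nat.add_right_cancel_iff] at hxl hfl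
    simp only [List.mem_append, List.mem_singleton, or_imp, forall_and, forall_eq] at hxm hfm
    rw [regSeq_concat] at hxr
    simp only [Ideal.ofList_append, Ideal.ofList_singleton, ← sup_assoc] at hxo hfo ⊢
    -- a regular element modulo `I`
    have hI1 : ∃ x₁ ∈ maximalIdeal Q, RegMod I x₁ := by
      cases xs with
      | nil => exact ⟨xl, hxm.2, by simpa using hxr.2⟩
      | cons a l => exact ⟨a, hxm.1 a List.mem_cons_self, hxr.1.1⟩
    obtain ⟨x₁, hx₁, hx₁r⟩ := hI1
    obtain ⟨y, hy, hyI, hyK, hyJ⟩ := exists_generic hx₁ hx₁r hxm.2 hxr.2 hfm.2 hfo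
    -- `OnlyMax` for `I + xs + y`
    have hKy : OnlyMax (I ⊔ Ideal.ofList xs ⊔ Ideal.span {y}) := by
      intro P hP hle
      rw [sup_le_iff, Ideal.span_singleton_le_iff_mem] at hle
      by_contra hne
      obtain ⟨P₀, hP₀, hP₀le⟩ := Ideal.exists_minimalPrimes_le hle.1
      have := hP₀.1.1
      rcases hP₀le.eq_or_lt with e | hlt
      · subst e
        have hmem : P₀ ∈ associatedPrimes Q (Q ⧸ (I ⊔ Ideal.ofList xs)) :=
          Module.associatedPrimes.minimalPrimes_annihilator_subset_associatedPrimes Q _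
            (by rwa [Ideal.annihilator_quotient])
        exact hyK.notMem_associatedPrime hmem hle.2
      · exact hne (eq_maximalIdeal_of_onlyMax hxm.2 hxo hP₀.1.2 hlt)
    have hperm : ∀ l : List Q, (l ++ [y]).Perm (y :: l) := fun l =>
      List.perm_append_comm
    have hxy : RegSeq (I ⊔ Ideal.span {y}) xs :=
      ((RegSeq.perm (hperm xs)
          (List.forall_mem_append.mpr ⟨hxm.1, List.forall_mem_singleton.mpr hy⟩)
        (regSeq_concat.mpr ⟨hxr.1, hyK⟩))).2
    have hswap : ∀ l : List Q, I ⊔ Ideal.span {y} ⊔ Ideal.ofList l =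
        I ⊔ Ideal.ofList l ⊔ Ideal.span {y} := fun l => sup_right_comm _ _ _
    obtain ⟨hfy, hsoc⟩ := ih (I ⊔ Ideal.span {y}) xs fs hxl hfl hxm.1 hfm.1 hxy
      (by rwa [hswap]) (by rwa [hswap])
    obtain ⟨hfs, hfy'⟩ := regSeq_concat.mp (RegSeq.perm (hperm fs).symm
      (List.forall_mem_cons.mpr ⟨hy, hfm.1⟩) (regSeq_cons.mpr ⟨hyI, hfy⟩))
    have hfl' := hfy'.of_onlyMax hy hfo
    refine ⟨regSeq_concat.mpr ⟨hfs, hfl'⟩, fun hs => ?_⟩
    have h1 := hs.exchange hxm.2 hxr.2 hyK
    rw [← hswap] at h1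
    have h2 := hsoc h1
    rw [hswap] at h2
    exact h2.exchange hy hfy' hfl'

end Fermat.Agent.NumCrit
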