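import Mathlib.RingTheory.Ideal.GoingUp
import Fermat.Agent.PatchDescent.RegularSeq
import Fermat.Agent.NumCrit.Socle
import Fermat.Agent.NumCrit.PowerSeries

/-!
# Choosing relations defining a complete intersection

By prime avoidance, `r` elements of an ideal `J` of `𝒪⟦X₁, …, X_r⟧` are modified by elements of
`J * J` so that together with a uniformiser they generate an ideal primary to the maximal ideal;
the modification does not change linear parts.
-/

set_option autoImplicit false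

namespace Fermat.Agent.NumCrit

open IsLocalRing

/-- Prime avoidance for a coset of an ideal. -/
theorem exists_add_mem_forall_notMem {P : Type} [CommRing P] (s : Finset (Ideal P))
    (hs : ∀ Q ∈ s, Q.IsPrime) (hinc : ∀ Q ∈ s, ∀ Q' ∈ s, Q ≤ Q' → Q = Q') {I : Ideal P}
    (hI : ∀ Q ∈ s, ¬ I ≤ Q) (f : P) : ∃ h ∈ I, ∀ Q ∈ s, f + h ∉ Q := by
  classical
  let s₁ := s.filter (f ∈ ·)
  let s₂ := s.filter (f ∉ ·)
  let I' := I * ∏ Q ∈ s₂, Q
  have hne : ¬ ((I' : Set P) ⊆ ⋃ Q ∈ (↑s₁ : Set (Ideal P)), (Q : Set P)) := by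
    rw [Ideal.subset_union_prime ⊥ ⊥ fun Q hQ _ _ => hs Q (Finset.mem_filter.mp hQ).1]
    rintro ⟨Q, hQ, hle⟩
    obtain ⟨hQs, hfQ⟩ := Finset.mem_filter.mp hQ
    have := hs Q hQs
    rcases (Ideal.IsPrime.mul_le this).mp hle with h | h
    · exact hI Q hQs h
    · obtain ⟨Q', hQ', hle'⟩ := (Ideal.IsPrime.prod_le this).mp h
      obtain ⟨hQ's, hfQ'⟩ := Finset.mem_filter.mp hQ'
      have e := hinc Q' hQ's Q hQs hle'
      subst e
      exact hfQ' hfQ
  obtain ⟨h, hh, hnot⟩ := Set.not_subset.mp hne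
  refine ⟨h, Ideal.mul_le_left hh, fun Q hQ hmem => ?_⟩
  by_cases hfQ : f ∈ Q
  · have hhQ : h ∈ Q := by simpa using Q.sub_mem hmem hfQ
    exact hnot (Set.mem_biUnion (x := Q) (Finset.mem_filter.mpr ⟨hQ, hfQ⟩) hhQ)
  · have hle : ∏ Q' ∈ s₂, Q' ≤ Q :=
      Ideal.prod_le_inf.trans (Finset.inf_le (f := fun Q' => Q')
        (Finset.mem_filter.mpr ⟨hQ, hfQ⟩))
    have : h ∈ Q := hle (Ideal.mul_le_right hh)
    exact hfQ (by simpa using Q.sub_mem hmem this)

/-- Weakly regular sequences are regular modulo the zero ideal. -/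
theorem regSeq_of_isWeaklyRegular {Q : Type} [CommRing Q] {rs : List Q}
    (h : RingTheory.Sequence.IsWeaklyRegular Q rs) : RegSeq ⊥ rs := by
  induction rs using List.reverseRecOn with
  | nil => exact regSeq_nil _
  | append_singleton l y ih =>
    obtain ⟨h1, h2⟩ := (RingTheory.Sequence.isWeaklyRegular_append_iff Q l [y]).mp h
    refine regSeq_concat.mpr ⟨ih h1, fun a ha => ?_⟩
    have h3 := ((RingTheory.Sequence.isWeaklyRegular_cons_iff _ y []).mp h2).1
    have hsmul : (Ideal.ofList l • ⊤ : Submodule Q Q) = Ideal.ofList l :=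
      (Ideal.smul_top_eq_map _).trans (by simp)
    rw [bot_sup_eq] at ha ⊢
    rw [← hsmul] at ha ⊢
    have : y • Submodule.Quotient.mk (p := (Ideal.ofList l • ⊤ : Submodule Q Q)) a =
        y • 0 := by
      rw [smul_zero, ← Submodule.Quotient.mk_smul, Submodule.Quotient.mk_eq_zero]
      exact ha
    exact (Submodule.Quotient.mk_eq_zero _).mp (h3 this)

variable {𝒪 : Type} [CommRing 𝒪] [IsDomain 𝒪] [IsDiscreteValuationRing 𝒪]

section Modification

variable {r : ℕ}

/-- Modify `r` elements of `J` by elements of `J * J` so that together with `ϖ` they generate an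
ideal primary to the maximal ideal. -/
theorem exists_modification {ϖ : 𝒪} (hϖ : Irreducible ϖ)
    {J : Ideal (MvPowerSeries (Fin r) 𝒪)}
    (hJ : OnlyMax (J ⊔ Ideal.span {MvPowerSeries.C ϖ})) (f₀ : Fin r → MvPowerSeries (Fin r) 𝒪) :
    ∃ f : Fin r → MvPowerSeries (Fin r) 𝒪, (∀ i, f i - f₀ i ∈ J * J) ∧
      OnlyMax (Ideal.span {MvPowerSeries.C ϖ} ⊔ Ideal.span (Set.range f)) := by
  classical
  let P := MvPowerSeries (Fin r) 𝒪
  let m := maximalIdeal P
  let c : P := MvPowerSeries.C ϖ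
  suffices ∀ i : ℕ, i ≤ r → ∃ f : Fin r → P, (∀ j, f j - f₀ j ∈ J * J) ∧
      ∀ Q : Ideal P, Q.IsPrime → Ideal.span {c} ≤ Q → (∀ j : Fin r, (j : ℕ) < i → f j ∈ Q) →
        Q = m ∨ ((i : ℕ∞) + 1 ≤ Q.height) by
    obtain ⟨f, hf, hQ⟩ := this r le_rfl
    refine ⟨f, hf, fun Q hQp hle => ?_⟩
    rw [sup_le_iff] at hle
    rcases hQ Q hQp hle.1 (fun j _ => hle.2 (Ideal.subset_span ⟨j, rfl⟩)) with h | h
    · exact h
    · by_contra hne
      have hlt : Q < m := lt_of_le_of_ne (IsLocalRing.le_maximalIdeal hQp.ne_top) hne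
      have : m.IsPrime := (maximalIdeal.isMaximal P).isPrime
      have h1 := Ideal.height_add_one_le_of_lt_of_isPrime hlt
      have h2 : m.height ≤ ((r + 1 : ℕ) : ℕ∞) :=
        (Ideal.height_le_spanFinrank m (maximalIdeal.isMaximal P).ne_top).trans
          (by exact_mod_cast PatchDescent.spanFinrank_maximalIdeal_le (𝒪 := 𝒪) r)
      have h3 : ((r : ℕ∞) + 1) + 1 ≤ ((r + 1 : ℕ) : ℕ∞) :=
        (add_le_add h le_rfl).trans (h1.trans h2)
      have h4 : ((r + 1 + 1 : ℕ) : ℕ∞) ≤ ((r + 1 : ℕ) : ℕ∞) := by push_cast at h3 ⊢; exact h3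
      exact absurd (Nat.cast_le.mp h4) (by omega)
  intro i hi
  induction i with
  | zero =>
    refine ⟨f₀, fun j => by simp, fun Q hQp hle _ => Or.inr ?_⟩
    have hne : Q ≠ ⊥ := by
      rintro rfl
      rw [le_bot_iff, Ideal.span_singleton_eq_bot] at hle
      exact hϖ.ne_zero (by simpa [c] using congrArg MvPowerSeries.constantCoeff hle)
    have : (⊥ : Ideal P).IsPrime := Ideal.isPrime_bot
    have h1 := Ideal.height_add_one_le_of_lt_of_isPrime (bot_lt_iff_ne_bot.mpr hne)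
    rw [Ideal.height_bot] at h1
    simpa using h1
  | succ i ih =>
    obtain ⟨f, hf, hQ⟩ := ih (by omega)
    let I : Ideal P := Ideal.span {c} ⊔ Ideal.span (f '' {j | (j : ℕ) < i})
    let s := I.finite_minimalPrimes_of_isNoetherianRing.toFinset.filter (· ≠ m)
    have hmem : ∀ Q ∈ s, Q ∈ I.minimalPrimes ∧ Q ≠ m := fun Q hQ' => by
      simpa [s] using hQ'
    have hs : ∀ Q ∈ s, Q.IsPrime := fun Q hQ' => (hmem Q hQ').1.1.1
    have hinc : ∀ Q ∈ s, ∀ Q' ∈ s, Q ≤ Q' → Q = Q' := fun Q hQ' Q' hQ'' hle =>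
      le_antisymm hle ((hmem Q' hQ'').1.2 (hmem Q hQ').1.1 hle)
    have hJs : ∀ Q ∈ s, ¬ J * J ≤ Q := by
      intro Q hQ' hle
      have hQp := hs Q hQ'
      have hJQ : J ≤ Q := ((Ideal.IsPrime.mul_le hQp).mp hle).elim id id
      exact (hmem Q hQ').2 (hJ Q hQp (sup_le hJQ (le_sup_left.trans (hmem Q hQ').1.1.2)))
    obtain ⟨h, hh, hnot⟩ := exists_add_mem_forall_notMem s hs hinc hJs (f₀ ⟨i, by omega⟩)
    refine ⟨Function.update f ⟨i, by omega⟩ (f₀ ⟨i, by omega⟩ + h), fun j => ?_, ?_⟩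
    · by_cases hj : j = ⟨i, by omega⟩
      · subst hj; simpa using hh
      · simpa [hj] using hf j
    intro Q hQp hc hfQ
    have hfi : f₀ ⟨i, by omega⟩ + h ∈ Q := by simpa using hfQ ⟨i, by omega⟩ (Nat.lt_succ_self i)
    have hlow : ∀ j : Fin r, (j : ℕ) < i → f j ∈ Q := fun j hj => by
      have hne : j ≠ ⟨i, by omega⟩ := fun e => by rw [e] at hj; exact absurd hj (lt_irrefl i)
      simpa [hne] using hfQ j (Nat.lt_succ_of_lt hj)
    have hIQ : I ≤ Q := sup_le hc (Ideal.span_le.mpr (by rintro _ ⟨j, hj, rfl⟩; exact hlow j hj))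
    obtain ⟨Q₀, hQ₀, hQ₀le⟩ := Ideal.exists_minimalPrimes_le hIQ
    by_cases h0 : Q₀ = m
    · exact Or.inl (le_antisymm (IsLocalRing.le_maximalIdeal hQp.ne_top) (h0 ▸ hQ₀le))
    right
    have hQ₀s : Q₀ ∈ s := by simp [s, hQ₀, h0]
    have := hQ₀.1.1
    have hlt : Q₀ < Q := lt_of_le_of_ne hQ₀le fun e => hnot Q₀ hQ₀s (e ▸ hfi)
    rcases hQ Q₀ hQ₀.1.1 (le_sup_left.trans hQ₀.1.2)
        (fun j hj => hQ₀.1.2 (Ideal.mem_sup_right (Ideal.subset_span ⟨j, hj, rfl⟩))) with hm | hm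
    · exact absurd hm h0
    · have h1 := Ideal.height_add_one_le_of_lt_of_isPrime hlt
      push_cast
      exact (add_le_add hm le_rfl).trans h1

end Modification

/-- The linear part of a power series. -/
noncomputable def linPart (r : ℕ) :
    MvPowerSeries (Fin r) 𝒪 →ₗ[𝒪] (Fin r → 𝒪) :=
  LinearMap.pi fun j => MvPowerSeries.coeff (Finsupp.single j 1)

omit [IsDomain 𝒪] [IsDiscreteValuationRing 𝒪] in
/-- The Leibniz rule for linear parts. -/
theorem linPart_mul {r : ℕ} (f g : MvPowerSeries (Fin r) 𝒪) :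
    linPart r (f * g) =
      MvPowerSeries.constantCoeff f • linPart r g +
        MvPowerSeries.constantCoeff g • linPart r f := by
  classical
  funext j
  show MvPowerSeries.coeff (Finsupp.single j 1) (f * g) = _
  rw [MvPowerSeries.coeff_mul, Finsupp.antidiagonal_single, Finset.sum_map,
    Finset.Nat.sum_antidiagonal_succ]
  simp [linPart, mul_comm]

omit [IsDomain 𝒪] [IsDiscreteValuationRing 𝒪] in
/-- The linear part of a variable. -/
theorem linPart_X {r : ℕ} (i : Fin r) :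
    linPart r (MvPowerSeries.X i : MvPowerSeries (Fin r) 𝒪) = Pi.single i 1 := by
  classical
  funext j
  show MvPowerSeries.coeff (Finsupp.single j 1) (MvPowerSeries.X i) = _
  rw [MvPowerSeries.coeff_X, Pi.single_apply]
  simp [Finsupp.single_left_inj]

end Fermat.Agent.NumCrit
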