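import Mathlib.RingTheory.Ideal.GoingUp
import Mathlib.RingTheory.Ideal.Cotangent
import Mathlib.LinearAlgebra.Matrix.Adjugate
import Fermat.Prelude.Thm_IsLocalRing_isAdicComplete_of_module_finite
import Fermat.Agent.PatchDescent.RegularSeq
import Fermat.Agent.NumCrit.Socle
import Fermat.Agent.NumCrit.PowerSeries
import Fermat.Agent.NumCrit.Relations
import Fermat.Agent.NumCrit.Lengths

/-!
# The numerical criterion of Wiles and Lenstra

For a surjection `φ : R → T` of local `𝒪`-algebras, `T` torsion free, and a point `π : T → 𝒪`: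
if the length of the cotangent space of `R` at `π ∘ φ` is at most the length of
`𝒪 / π (Ann (ker π)) < ∞`, then `φ` is an isomorphism.

For `R` finite over `𝒪`, present `R` as a quotient of `P = 𝒪⟦X₁, …, X_r⟧` and choose relations `f`
which form with a uniformiser `ϖ` a system of parameters of `P` and whose linear parts have
determinant of order at most the cotangent length (`exists_relations`). Their Cramer determinant
`D` then generates the congruence ideal, and as the socle of `P / (ϖ, f)` is simple, generated by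
`D`, the kernel of `P → T` is `(f)` (`ker_le_span_relations`).
-/

set_option autoImplicit false

namespace Fermat.Agent.NumCrit

open IsLocalRing

/-- The congruence ideal of a point of an algebra. -/
def congruenceIdeal {𝒪 T : Type} [CommRing 𝒪] [CommRing T] [Algebra 𝒪 T] (π : T →ₐ[𝒪] 𝒪) :
    Ideal 𝒪 :=
  (RingHom.ker π).annihilator.map π

theorem point_surjective {𝒪 T : Type} [CommRing 𝒪] [CommRing T] [Algebra 𝒪 T]
    (π : T →ₐ[𝒪] 𝒪) : Function.Surjective π :=
  fun c => ⟨algebraMap 𝒪 T c, by simp⟩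

/-- The congruence ideal consists of the values of annihilators of the kernel of the point. -/
theorem mem_congruenceIdeal {𝒪 T : Type} [CommRing 𝒪] [CommRing T] [Algebra 𝒪 T]
    (π : T →ₐ[𝒪] 𝒪) {c : 𝒪} :
    c ∈ congruenceIdeal π ↔ ∃ t : T, (∀ x, π x = 0 → t * x = 0) ∧ π t = c := by
  rw [congruenceIdeal, Ideal.mem_map_iff_of_surjective π (point_surjective π)]
  refine exists_congr fun t => and_congr_left fun _ => ?_
  simp only [Submodule.mem_annihilator, RingHom.mem_ker, smul_eq_mul]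

/-- If the congruence ideal is nonzero, the kernel of the point meets its annihilator trivially. -/
theorem eq_zero_of_mem_ker_of_mem_annihilator {𝒪 T : Type} [CommRing 𝒪] [CommRing T] [IsDomain 𝒪]
    [Algebra 𝒪 T] [Module.IsTorsionFree 𝒪 T] (π : T →ₐ[𝒪] 𝒪) (hη : congruenceIdeal π ≠ ⊥)
    {x : T} (hx : π x = 0) (hann : ∀ y, π y = 0 → x * y = 0) : x = 0 := by
  obtain ⟨c, hc, hc0⟩ := Submodule.exists_mem_ne_zero_of_ne_bot hη
  obtain ⟨t, ht, rfl⟩ := (mem_congruenceIdeal π).mp hc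
  have h : π t • x = 0 := by
    rw [Algebra.smul_def]
    calc algebraMap 𝒪 T (π t) * x = t * x - x * (t - algebraMap 𝒪 T (π t)) := by ring
      _ = 0 := by rw [ht x hx, hann _ (by simp), sub_zero]
  exact (smul_eq_zero.mp h).resolve_left hc0

/-- If `δ` annihilates the kernel of the point and its value generates the congruence ideal, then
in a relation `ϖ u + b δ = 0` the element `u` is a multiple `e δ`, and `b = -ϖ e`. -/
theorem exists_eq_smul_of_smul_add_smul_eq_zero {𝒪 T : Type} [CommRing 𝒪] [CommRing T]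
    [IsDomain 𝒪] [Algebra 𝒪 T] [Module.IsTorsionFree 𝒪 T] (π : T →ₐ[𝒪] 𝒪)
    (hη : congruenceIdeal π ≠ ⊥) {δ u : T} (hδ : ∀ y, π y = 0 → δ * y = 0)
    (hgen : congruenceIdeal π = Ideal.span {π δ}) {ϖ b : 𝒪} (hϖ : ϖ ≠ 0)
    (h0 : ϖ • u + b • δ = 0) : ∃ e : 𝒪, u = e • δ ∧ b = -(ϖ * e) := by
  have huann : ∀ y, π y = 0 → u * y = 0 := by
    intro y hy
    have h1 := congrArg (· * y) h0
    simp only [add_mul, smul_mul_assoc, hδ y hy, smul_zero, add_zero, zero_mul] at h1
    exact (smul_eq_zero.mp h1).resolve_left hϖ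
  obtain ⟨e, he⟩ := Ideal.mem_span_singleton'.mp
    (hgen ▸ (mem_congruenceIdeal π).mpr ⟨u, huann, rfl⟩ : π u ∈ Ideal.span {π δ})
  have hu : u = e • δ := by
    refine sub_eq_zero.mp (eq_zero_of_mem_ker_of_mem_annihilator π hη ?_ fun y hy => ?_)
    · rw [map_sub, map_smul, smul_eq_mul, he, sub_self]
    · rw [sub_mul, huann y hy, smul_mul_assoc, hδ y hy, smul_zero, sub_zero]
  have hd0 : π δ ≠ 0 := fun h => hη (by rw [hgen, h, Ideal.span_singleton_eq_bot.mpr rfl])
  refine ⟨e, hu, ?_⟩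
  have h1 := congrArg π h0
  rw [hu, map_add, map_smul, map_smul, map_smul, map_zero, smul_eq_mul, smul_eq_mul,
    smul_eq_mul] at h1
  exact mul_right_cancel₀ hd0 (by linear_combination h1)

section Variables

variable {𝒪 : Type} [CommRing 𝒪] {r : ℕ}

/-- A point of the power series ring killing the variables is the constant coefficient. -/
theorem algHom_eq_constantCoeff (χ : MvPowerSeries (Fin r) 𝒪 →ₐ[𝒪] 𝒪)
    (h : ∀ i, χ (MvPowerSeries.X i) = 0) (g : MvPowerSeries (Fin r) 𝒪) :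
    χ g = MvPowerSeries.constantCoeff g := by
  have hle : Ideal.span (Set.range (MvPowerSeries.X : Fin r → MvPowerSeries (Fin r) 𝒪)) ≤
      RingHom.ker χ := Ideal.span_le.mpr (by rintro _ ⟨i, rfl⟩; exact h i)
  have h0 := RingHom.mem_ker.mp (hle (sub_C_mem_span_X g))
  rw [map_sub, MvPowerSeries.c_eq_algebraMap, AlgHom.commutes] at h0
  simpa [sub_eq_zero] using h0

/-- The linear part vanishes on the square of an ideal of series without constant term. -/
theorem linPart_eq_zero_of_mem_mul {J : Ideal (MvPowerSeries (Fin r) 𝒪)}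
    (hJ : ∀ g ∈ J, MvPowerSeries.constantCoeff g = 0) {g : MvPowerSeries (Fin r) 𝒪}
    (hg : g ∈ J * J) : linPart r g = 0 := by
  refine Submodule.mul_induction_on hg (fun x hx y hy => ?_) (fun x y hx hy => ?_)
  · rw [linPart_mul, hJ x hx, hJ y hy, zero_smul, zero_smul, add_zero]
  · rw [map_add, hx, hy, add_zero]

/-- Cramer's rule: for series `f i` without constant term there is a series `D` whose constant
term is the determinant of the linear parts and which multiplies the ideal of the variables into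
the ideal of the `f i`. -/
theorem exists_det_linPart (f : Fin r → MvPowerSeries (Fin r) 𝒪)
    (hf : ∀ i, MvPowerSeries.constantCoeff (f i) = 0) :
    ∃ D : MvPowerSeries (Fin r) 𝒪,
      MvPowerSeries.constantCoeff D = (Matrix.of fun i => linPart r (f i)).det ∧
      ∀ g, MvPowerSeries.constantCoeff g = 0 → g * D ∈ Ideal.span (Set.range f) := by
  -- `f = A X`, and `D = det A`
  choose A hA using fun i => Ideal.mem_span_range_iff_exists_fun.mp (mem_span_X_iff.mpr (hf i))
  let M : Matrix (Fin r) (Fin r) (MvPowerSeries (Fin r) 𝒪) := Matrix.of A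
  refine ⟨M.det, ?_, fun g hg => ?_⟩
  · rw [RingHom.map_det]
    refine congrArg Matrix.det ?_
    ext i j
    have : linPart r (f i) j = MvPowerSeries.constantCoeff (A i j) := by
      rw [← hA i]
      simp [map_sum, linPart_mul, linPart_X, Finset.sum_apply, Pi.single_apply]
    simp [M, this]
  · obtain ⟨c, rfl⟩ := Ideal.mem_span_range_iff_exists_fun.mp (mem_span_X_iff.mpr hg)
    have hMX : M.mulVec (MvPowerSeries.X : Fin r → MvPowerSeries (Fin r) 𝒪) = f :=
      funext fun i => hA i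
    have h : M.adjugate.mulVec f = M.det • (MvPowerSeries.X : Fin r → MvPowerSeries (Fin r) 𝒪) := by
      rw [← hMX, Matrix.mulVec_mulVec, Matrix.adjugate_mul, Matrix.smul_mulVec, Matrix.one_mulVec]
    rw [Finset.sum_mul]
    refine Submodule.sum_mem _ fun j _ => ?_
    rw [mul_assoc, mul_comm (MvPowerSeries.X j) M.det, ← smul_eq_mul M.det, ← Pi.smul_apply, ← h,
      Matrix.mulVec, dotProduct]
    exact Ideal.mul_mem_left _ _ (Submodule.sum_mem _ fun i _ =>
      Ideal.mul_mem_left _ _ (Ideal.subset_span ⟨i, rfl⟩))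

end Variables

/-- If the socle of `Q / I` is simple and generated by `D`, an ideal which meets `I + (D)` only
inside `I` is contained in `I`. -/
theorem le_of_simpleSocle {Q : Type} [CommRing Q] [IsLocalRing Q] [IsNoetherianRing Q]
    {I J : Ideal Q} {D : Q} (hI : OnlyMax I) (hsoc : SimpleSocle I)
    (hD : ∀ t ∈ maximalIdeal Q, t * D ∈ I) (hDI : D ∉ I)
    (hJ : ∀ g ∈ J, g ∈ I ⊔ Ideal.span {D} → g ∈ I) : J ≤ I := by
  classical
  intro g hg
  by_contra hne
  have hrad : maximalIdeal Q ≤ I.radical := by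
    rw [Ideal.radical_eq_sInf]
    exact le_sInf fun P ⟨hle, hP⟩ => (hI P hP hle).ge
  obtain ⟨N, hN⟩ := Ideal.exists_pow_le_of_le_radical_of_fg hrad (IsNoetherian.noetherian _)
  have hex : ∃ n : ℕ, ∀ t ∈ maximalIdeal Q ^ n, t * g ∈ I :=
    ⟨N, fun t ht => Ideal.mul_mem_right _ _ (hN ht)⟩
  have h0 : Nat.find hex ≠ 0 := fun h0 =>
    hne (one_mul g ▸ (h0 ▸ Nat.find_spec hex : ∀ t ∈ maximalIdeal Q ^ 0, t * g ∈ I) 1 (by simp))
  obtain ⟨n, hn, hmin⟩ : ∃ n : ℕ, (∀ t ∈ maximalIdeal Q ^ (n + 1), t * g ∈ I) ∧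
      ¬ (∀ t ∈ maximalIdeal Q ^ n, t * g ∈ I) := by
    refine ⟨Nat.find hex - 1, ?_, Nat.find_min hex (Nat.sub_one_lt h0)⟩
    rw [Nat.sub_add_cancel (Nat.one_le_iff_ne_zero.mpr h0)]
    exact Nat.find_spec hex
  push Not at hmin
  obtain ⟨t, ht, htg⟩ := hmin
  obtain ⟨β, hβ⟩ := hsoc D (t * g) hD
    (fun s hs => by
      rw [← mul_assoc]
      exact hn _ (by rw [pow_succ']; exact Ideal.mul_mem_mul hs ht)) hDI
  refine htg (hJ _ (Ideal.mul_mem_left _ _ hg) ?_)
  rw [show t * g = (t * g - β * D) + β * D by ring]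
  exact add_mem (Ideal.mem_sup_left hβ)
    (Ideal.mem_sup_right (Ideal.mem_span_singleton'.mpr ⟨β, rfl⟩))

variable {𝒪 : Type} [CommRing 𝒪] [IsDomain 𝒪] [IsDiscreteValuationRing 𝒪]

section Presentation

variable {r : ℕ} {R : Type} [CommRing R] [IsLocalRing R] [Algebra 𝒪 R] [Module.Finite 𝒪 R]

/-- In a finite local algebra the only prime containing a uniformiser is the maximal ideal. -/
theorem eq_maximalIdeal_of_uniformizer_mem {ϖ : 𝒪} (hϖ : Irreducible ϖ) {Q : Ideal R}
    (hQ : Q.IsPrime) (hmem : algebraMap 𝒪 R ϖ ∈ Q) : Q = maximalIdeal R := by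
  have : (Q.comap (algebraMap 𝒪 R)) = maximalIdeal 𝒪 :=
    ((maximalIdeal.isMaximal 𝒪).eq_of_le (Ideal.comap_ne_top _ hQ.ne_top) (by
      rw [hϖ.maximalIdeal_eq, Ideal.span_singleton_le_iff_mem]; exact hmem)).symm
  exact IsLocalRing.eq_maximalIdeal (Ideal.isMaximal_of_isIntegral_of_isMaximal_comap (R := 𝒪) Q
    (this ▸ maximalIdeal.isMaximal 𝒪))

omit [IsDomain 𝒪] [IsDiscreteValuationRing 𝒪] [IsLocalRing R] [Module.Finite 𝒪 R] in
/-- If the variables go to generators of the kernel of a point, the image of the power series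
ring is dense for the topology defined by that kernel. -/
theorem exists_sub_mem_pow (πR : R →ₐ[𝒪] 𝒪) {a : Fin r → R}
    (ha : Ideal.span (Set.range a) = RingHom.ker πR) (ψ : MvPowerSeries (Fin r) 𝒪 →ₐ[𝒪] R)
    (hψ : ∀ i, ψ (MvPowerSeries.X i) = a i) (n : ℕ) (x : R) :
    ∃ g, x - ψ g ∈ RingHom.ker πR ^ n := by
  induction n generalizing x with
  | zero => exact ⟨0, by simp⟩
  | succ n ih =>
    obtain ⟨c, hc⟩ := Ideal.mem_span_range_iff_exists_fun.mp
      (ha ▸ RingHom.mem_ker.mpr (by simp) : x - algebraMap 𝒪 R (πR x) ∈ Ideal.span (Set.range a))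
    choose g hg using fun i => ih (c i)
    refine ⟨algebraMap 𝒪 _ (πR x) + ∑ i, g i * MvPowerSeries.X i, ?_⟩
    simp only [map_add, AlgHom.commutes, map_sum, map_mul, hψ]
    rw [← sub_sub, ← hc, ← Finset.sum_sub_distrib, pow_succ]
    exact Submodule.sum_mem _ fun i _ => by
      rw [← sub_mul]
      exact Ideal.mul_mem_mul (hg i) (ha ▸ Ideal.subset_span ⟨i, rfl⟩)

/-- A map from the power series ring sending the variables to generators of the kernel of a point
of a finite local algebra is surjective. -/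
theorem surjective_of_span_range_eq_ker (πR : R →ₐ[𝒪] 𝒪) {a : Fin r → R}
    (ha : Ideal.span (Set.range a) = RingHom.ker πR) (ψ : MvPowerSeries (Fin r) 𝒪 →ₐ[𝒪] R)
    (hψ : ∀ i, ψ (MvPowerSeries.X i) = a i) : Function.Surjective ψ := by
  have : IsNoetherianRing R := IsNoetherianRing.of_finite 𝒪 R
  obtain ⟨ϖ, hϖ⟩ := IsDiscreteValuationRing.exists_irreducible 𝒪
  have hrad : maximalIdeal R ≤ (Ideal.span {algebraMap 𝒪 R ϖ}).radical := by
    rw [Ideal.radical_eq_sInf]
    exact le_sInf fun Q ⟨hle, hQ⟩ =>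
      (eq_maximalIdeal_of_uniformizer_mem hϖ hQ ((Ideal.span_singleton_le_iff_mem _).mp hle)).ge
  obtain ⟨N, hN⟩ := Ideal.exists_pow_le_of_le_radical_of_fg hrad (IsNoetherian.noetherian _)
  have hA : (⊤ : Submodule 𝒪 R) ≤
      LinearMap.range ψ.toLinearMap ⊔ Ideal.span {ϖ} • (⊤ : Submodule 𝒪 R) := by
    intro x _
    obtain ⟨g, hg⟩ := exists_sub_mem_pow πR ha ψ hψ N x
    obtain ⟨y, hy⟩ := Ideal.mem_span_singleton'.mp
      (hN (Ideal.pow_right_mono (IsLocalRing.le_maximalIdeal (RingHom.ker_ne_top _)) N hg))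
    rw [Submodule.ideal_span_singleton_smul]
    refine Submodule.mem_sup.mpr ⟨ψ g, ⟨g, rfl⟩, ϖ • y, ?_, ?_⟩
    · exact Submodule.smul_mem_pointwise_smul y ϖ ⊤ trivial
    · rw [Algebra.smul_def, mul_comm, hy]; abel
  intro x
  obtain ⟨g, hg⟩ := Submodule.le_of_le_smul_of_le_jacobson_bot
    (Module.finite_def.mp ‹_›) (by rw [← hϖ.maximalIdeal_eq]; exact maximalIdeal_le_jacobson _)
    hA (trivial : x ∈ (⊤ : Submodule 𝒪 R))
  exact ⟨g, hg⟩

/-- Only the maximal ideal contains the kernel of a surjection onto a finite local algebra and a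
uniformiser. -/
theorem onlyMax_ker_sup_of_surjective {ϖ : 𝒪} (hϖ : Irreducible ϖ)
    (ψ : MvPowerSeries (Fin r) 𝒪 →ₐ[𝒪] R) (hψ : Function.Surjective ψ) :
    OnlyMax (RingHom.ker ψ ⊔ Ideal.span {MvPowerSeries.C ϖ}) := by
  intro Q hQ hle
  rw [sup_le_iff, Ideal.span_singleton_le_iff_mem] at hle
  have hQ' : (Q.map ψ).IsPrime := Ideal.map_isPrime_of_surjective hψ hle.1
  have hmem : algebraMap 𝒪 R ϖ ∈ Q.map ψ := by
    rw [← ψ.commutes, ← MvPowerSeries.c_eq_algebraMap]; exact Ideal.mem_map_of_mem ψ hle.2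
  have h := congrArg (Ideal.comap ψ) (eq_maximalIdeal_of_uniformizer_mem hϖ hQ' hmem)
  rw [Ideal.comap_map_of_surjective _ hψ] at h
  have hsup : Q ⊔ Ideal.comap ψ ⊥ = Q := sup_eq_left.mpr hle.1
  rw [hsup] at h
  have hmax : (Ideal.comap ψ (maximalIdeal R)).IsMaximal := Ideal.comap_isMaximal_of_surjective ψ hψ
  rw [h]
  exact IsLocalRing.eq_maximalIdeal hmax

omit [IsDomain 𝒪] [IsDiscreteValuationRing 𝒪] [IsLocalRing R] [Module.Finite 𝒪 R] in
/-- For a presentation `ψ` sending the variables to generators of an ideal `p`, the cokernel of the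
linear parts of the relations is at most as long as the cotangent space of `p`. -/
theorem length_quotient_linPart_le {p : Ideal R} {a : Fin r → R}
    (ha : Ideal.span (Set.range a) = p) (ψ : MvPowerSeries (Fin r) 𝒪 →ₐ[𝒪] R)
    (hψ : ∀ i, ψ (MvPowerSeries.X i) = a i) (hψsurj : Function.Surjective ψ) :
    Module.length 𝒪 ((Fin r → 𝒪) ⧸ ((RingHom.ker ψ).restrictScalars 𝒪).map (linPart r)) ≤
      Module.length 𝒪 p.Cotangent := by
  classical
  set IX : Ideal (MvPowerSeries (Fin r) 𝒪) :=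
    Ideal.span (Set.range (MvPowerSeries.X : Fin r → MvPowerSeries (Fin r) 𝒪))
  have hap : ∀ i, a i ∈ p := fun i => ha ▸ Ideal.subset_span ⟨i, rfl⟩
  have hpIX : p ≤ IX.map ψ := ha ▸ Ideal.span_le.mpr (by
    rintro _ ⟨i, rfl⟩; exact hψ i ▸ Ideal.mem_map_of_mem ψ (Ideal.subset_span ⟨i, rfl⟩))
  let e : (Fin r → 𝒪) →ₗ[𝒪] p.Cotangent :=
    Fintype.linearCombination 𝒪 fun j => p.toCotangent ⟨a j, hap j⟩
  have he : ∀ c : Fin r → 𝒪, ∃ w : p,
      (w : R) = ψ (∑ j, c j • (MvPowerSeries.X : Fin r → MvPowerSeries (Fin r) 𝒪) j) ∧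
          e c = p.toCotangent w := by
    intro c
    refine ⟨∑ j, c j • (⟨a j, hap j⟩ : p), by simp [hψ], ?_⟩
    simp [e, Fintype.linearCombination_apply, map_sum, ← LinearMap.map_smul_of_tower]
  have hker : LinearMap.ker e ≤ ((RingHom.ker ψ).restrictScalars 𝒪).map (linPart r) := by
    intro c hc
    obtain ⟨w, hw, hew⟩ := he c
    rw [LinearMap.mem_ker, hew, Ideal.toCotangent_eq_zero, hw, pow_two] at hc
    have hle : p * p ≤ (IX * IX).map ψ := by
      rw [Ideal.map_mul]; exact Ideal.mul_mono hpIX hpIX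
    obtain ⟨h, hh, hhc⟩ := (Ideal.mem_map_iff_of_surjective ψ hψsurj).mp (hle hc)
    refine ⟨∑ j, c j • (MvPowerSeries.X : Fin r → MvPowerSeries (Fin r) 𝒪) j - h, ?_, ?_⟩
    · simp [RingHom.mem_ker, hhc]
    · rw [map_sub, linPart_eq_zero_of_mem_mul (fun g hg => mem_span_X_iff.mp hg) hh, sub_zero]
      funext j
      simp [map_sum, linPart_X, Finset.sum_apply, Pi.single_apply]
  refine (Module.length_le_of_surjective _ (Submodule.factor_surjective hker)).trans ?_
  rw [e.quotKerEquivRange.length_eq]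
  exact Module.length_le_of_injective _ (LinearMap.range e).injective_subtype

end Presentation

section Relations

variable {r : ℕ} {ϖ : 𝒪} (hϖ : Irreducible ϖ)

include hϖ

/-- An ideal of series without constant term contains `r` elements defining, together with a
uniformiser, an ideal primary to the maximal ideal, such that the determinant of their linear
parts has order at most the length of the cokernel of all linear parts. -/
theorem exists_relations {J : Ideal (MvPowerSeries (Fin r) 𝒪)}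
    (hJ : ∀ g ∈ J, MvPowerSeries.constantCoeff g = 0)
    (hJmax : OnlyMax (J ⊔ Ideal.span {MvPowerSeries.C ϖ})) :
    ∃ f : Fin r → MvPowerSeries (Fin r) 𝒪, (∀ i, f i ∈ J) ∧
      OnlyMax (Ideal.span {MvPowerSeries.C ϖ} ⊔ Ideal.span (Set.range f)) ∧
      Ring.ord 𝒪 (Matrix.of fun i => linPart r (f i)).det ≤
        Module.length 𝒪 ((Fin r → 𝒪) ⧸ (J.restrictScalars 𝒪).map (linPart r)) := by
  obtain ⟨v, hvL, hvdet⟩ := exists_det_ord_le ((J.restrictScalars 𝒪).map (linPart r))
  choose f₀ hf₀J hf₀v using fun i => hvL i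
  obtain ⟨f, hff₀, hfmax⟩ := exists_modification hϖ hJmax f₀
  refine ⟨f, fun i => ?_, hfmax, ?_⟩
  · simpa using add_mem (Ideal.mul_le_left (hff₀ i)) (hf₀J i)
  · rwa [show (fun i => linPart r (f i)) = v from funext fun i => by
      have h := linPart_eq_zero_of_mem_mul hJ (hff₀ i)
      rw [map_sub, sub_eq_zero] at h
      rw [h, hf₀v]]

/-- A complete intersection in the power series ring has simple socle modulo the uniformiser. -/
theorem simpleSocle_span_uniformizer_sup (f : Fin r → MvPowerSeries (Fin r) 𝒪)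
    (hf : ∀ i, MvPowerSeries.constantCoeff (f i) = 0)
    (hfmax : OnlyMax (Ideal.span {MvPowerSeries.C ϖ} ⊔ Ideal.span (Set.range f))) :
    SimpleSocle (Ideal.span {MvPowerSeries.C ϖ} ⊔ Ideal.span (Set.range f)) := by
  let xs := PatchDescent.params r ϖ
  let fs := MvPowerSeries.C ϖ :: List.ofFn f
  have hCm : (MvPowerSeries.C ϖ : MvPowerSeries (Fin r) 𝒪) ∈ maximalIdeal _ := by
    simpa [MvPowerSeries.isUnit_iff_constantCoeff] using hϖ.not_isUnit
  have hm : ∀ g : MvPowerSeries (Fin r) 𝒪, MvPowerSeries.constantCoeff g = 0 →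
      g ∈ maximalIdeal _ := fun g hg => by simp [MvPowerSeries.isUnit_iff_constantCoeff, hg]
  have hxm : ∀ x ∈ xs, x ∈ maximalIdeal (MvPowerSeries (Fin r) 𝒪) := by
    intro x hx
    simp only [xs, PatchDescent.params, List.mem_append, List.mem_ofFn, List.mem_singleton] at hx
    rcases hx with ⟨i, rfl⟩ | rfl
    · exact hm _ (by simp)
    · exact hCm
  have hxs : (⊥ : Ideal (MvPowerSeries (Fin r) 𝒪)) ⊔ Ideal.ofList xs =
      maximalIdeal (MvPowerSeries (Fin r) 𝒪) := by
    rw [bot_sup_eq]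
    exact le_antisymm (Ideal.span_le.mpr hxm) (PatchDescent.maximalIdeal_le_params hϖ r)
  have hfs : (⊥ : Ideal (MvPowerSeries (Fin r) 𝒪)) ⊔ Ideal.ofList fs =
      Ideal.span {MvPowerSeries.C ϖ} ⊔ Ideal.span (Set.range f) := by
    rw [bot_sup_eq, Ideal.ofList_cons]
    congr 1
    exact congrArg Ideal.span (Set.ext fun x => by simp [List.mem_ofFn])
  have h := (regSeq_and_simpleSocle (r + 1) ⊥ xs fs (PatchDescent.length_params r ϖ)
    (by simp [fs]) hxm
    (List.forall_mem_cons.mpr ⟨hCm, fun x hx => by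
      obtain ⟨i, rfl⟩ := List.mem_ofFn.mp hx
      exact hm _ (hf i)⟩)
    (regSeq_of_isWeaklyRegular (PatchDescent.isWeaklyRegular_params hϖ r))
    (fun Q hQ hle => le_antisymm (IsLocalRing.le_maximalIdeal hQ.ne_top) (hxs ▸ hle))
    (by rw [hfs]; exact hfmax)).2
  rw [hxs, hfs] at h
  exact h simpleSocle_maximalIdeal

end Relations

section Kernel

variable {r : ℕ} {T : Type} [CommRing T] [Algebra 𝒪 T] [Module.IsTorsionFree 𝒪 T]
  {π : T →ₐ[𝒪] 𝒪} (hη : congruenceIdeal π ≠ ⊥) (χ : MvPowerSeries (Fin r) 𝒪 →ₐ[𝒪] T)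
  {D : MvPowerSeries (Fin r) 𝒪} (hδ : ∀ y, π y = 0 → χ D * y = 0)
  (hgen : congruenceIdeal π = Ideal.span {π (χ D)})

include hη hδ hgen

omit [IsDiscreteValuationRing 𝒪] in
/-- An element of `ker χ` lying in `(ϖ) + F + (D)` lies in `F + ϖ ker χ`. -/
theorem mem_sup_mul_ker_of_mem_sup {ϖ : 𝒪} (hϖ : ϖ ≠ 0) {F : Ideal (MvPowerSeries (Fin r) 𝒪)}
    (hF : F ≤ RingHom.ker χ) (hD : ∀ g, MvPowerSeries.constantCoeff g = 0 → g * D ∈ F)
    {g : MvPowerSeries (Fin r) 𝒪} (hg : χ g = 0)
    (hmem : g ∈ Ideal.span {MvPowerSeries.C ϖ} ⊔ F ⊔ Ideal.span {D}) :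
    g ∈ F ⊔ Ideal.span {MvPowerSeries.C ϖ} * RingHom.ker χ := by
  obtain ⟨uh, huh, cD, hcD, rfl⟩ := Submodule.mem_sup.mp hmem
  obtain ⟨u', hu', h, hh, rfl⟩ := Submodule.mem_sup.mp huh
  obtain ⟨b, rfl⟩ := Ideal.mem_span_singleton'.mp hcD
  obtain ⟨u, rfl⟩ := Ideal.mem_span_singleton'.mp hu'
  have hχC : ∀ c : 𝒪, χ (MvPowerSeries.C c) = algebraMap 𝒪 T c := fun c => by
    rw [MvPowerSeries.c_eq_algebraMap, AlgHom.commutes]
  set b₀ := MvPowerSeries.constantCoeff b
  have hbF : (b - MvPowerSeries.C b₀) * D ∈ F := hD _ (by simp [b₀])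
  have hb : χ (b * D) = algebraMap 𝒪 T b₀ * χ D := by
    have := RingHom.mem_ker.mp (hF hbF)
    rw [sub_mul, map_sub, sub_eq_zero, map_mul _ (MvPowerSeries.C _), hχC] at this
    rw [this]
  have h0 : ϖ • χ u + b₀ • χ D = 0 := by
    rw [map_add, map_add, RingHom.mem_ker.mp (hF hh), add_zero, map_mul, hχC, hb] at hg
    rw [Algebra.smul_def, Algebra.smul_def, mul_comm _ (χ u)]
    exact hg
  obtain ⟨e, hu, hb₀⟩ := exists_eq_smul_of_smul_add_smul_eq_zero π hη hδ hgen hϖ h0
  have hu'' : u - MvPowerSeries.C e * D ∈ RingHom.ker χ := by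
    rw [RingHom.mem_ker, map_sub, map_mul, hχC, hu, Algebra.smul_def, sub_self]
  refine Submodule.mem_sup.mpr ⟨h + (b - MvPowerSeries.C b₀) * D, add_mem hh hbF,
    MvPowerSeries.C ϖ * (u - MvPowerSeries.C e * D),
    Ideal.mul_mem_mul (Ideal.subset_span rfl) hu'', ?_⟩
  rw [hb₀, map_neg, map_mul]
  ring

/-- If the value of `χ D` generates the congruence ideal, where `D` multiplies the variables into
the ideal of the relations `f`, then those relations generate the kernel of `χ`. -/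
theorem ker_le_span_relations {ϖ : 𝒪} (hϖ : Irreducible ϖ)
    (f : Fin r → MvPowerSeries (Fin r) 𝒪) (hfcc : ∀ i, MvPowerSeries.constantCoeff (f i) = 0)
    (hfχ : ∀ i, χ (f i) = 0)
    (hfmax : OnlyMax (Ideal.span {MvPowerSeries.C ϖ} ⊔ Ideal.span (Set.range f)))
    (hD : ∀ g, MvPowerSeries.constantCoeff g = 0 → g * D ∈ Ideal.span (Set.range f)) :
    RingHom.ker χ ≤ Ideal.span (Set.range f) := by
  set c₀ : MvPowerSeries (Fin r) 𝒪 := MvPowerSeries.C ϖ with hc₀
  set F := Ideal.span (Set.range f)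
  have hF : F ≤ RingHom.ker χ := Ideal.span_le.mpr (by rintro _ ⟨i, rfl⟩; exact hfχ i)
  have hkey := fun g (hg : χ g = 0) => mem_sup_mul_ker_of_mem_sup hη χ hδ hgen hϖ.ne_zero hF hD hg
  have hle₀ : F ⊔ Ideal.span {c₀} * RingHom.ker χ ≤ Ideal.span {c₀} ⊔ F :=
    sup_le le_sup_right (Ideal.mul_le_left.trans le_sup_left)
  have hDnot : D ∉ Ideal.span {c₀} ⊔ F := by
    intro hmem
    obtain ⟨u', hu', h, hh, hD'⟩ := Submodule.mem_sup.mp hmem
    obtain ⟨u, rfl⟩ := Ideal.mem_span_singleton'.mp hu'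
    have h1 : ϖ • χ u + (-1 : 𝒪) • χ D = 0 := by
      rw [neg_smul, one_smul, ← hD', map_add, RingHom.mem_ker.mp (hF hh), add_zero, map_mul, hc₀,
        MvPowerSeries.c_eq_algebraMap, AlgHom.commutes, Algebra.smul_def, mul_comm, add_neg_cancel]
    obtain ⟨e, -, he⟩ := exists_eq_smul_of_smul_add_smul_eq_zero π hη hδ hgen hϖ.ne_zero h1
    exact hϖ.not_isUnit (IsUnit.of_mul_eq_one _ (neg_injective he).symm)
  have hDsoc : ∀ t ∈ maximalIdeal (MvPowerSeries (Fin r) 𝒪), t * D ∈ Ideal.span {c₀} ⊔ F := by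
    intro t ht
    rw [mem_maximalIdeal, mem_nonunits_iff, MvPowerSeries.isUnit_iff_constantCoeff] at ht
    have hcc' : MvPowerSeries.constantCoeff t ∈ maximalIdeal 𝒪 := ht
    rw [hϖ.maximalIdeal_eq, Ideal.mem_span_singleton'] at hcc'
    obtain ⟨w, hw⟩ := hcc'
    rw [show t * D = MvPowerSeries.C w * D * c₀ +
      (t - MvPowerSeries.C (MvPowerSeries.constantCoeff t)) * D by rw [← hw, map_mul, hc₀]; ring]
    exact add_mem (Ideal.mem_sup_left (Ideal.mul_mem_left _ _ (Ideal.subset_span rfl)))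
      (Ideal.mem_sup_right (hD _ (by simp)))
  have hkerI : RingHom.ker χ ≤ Ideal.span {c₀} ⊔ F :=
    le_of_simpleSocle hfmax (simpleSocle_span_uniformizer_sup hϖ f hfcc hfmax) hDsoc hDnot
      fun g hg hmem => hle₀ (hkey g hg hmem)
  refine Submodule.le_of_le_smul_of_le_jacobson_bot (IsNoetherian.noetherian _)
    (maximalIdeal_le_jacobson _) fun g hg => ?_
  have hCm : c₀ ∈ maximalIdeal (MvPowerSeries (Fin r) 𝒪) := by
    simpa [hc₀, MvPowerSeries.isUnit_iff_constantCoeff] using hϖ.not_isUnit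
  exact (sup_le_sup_left (Ideal.mul_mono_left ((Ideal.span_singleton_le_iff_mem _).mpr hCm)) F :
    F ⊔ Ideal.span {c₀} * RingHom.ker χ ≤
      F ⊔ maximalIdeal (MvPowerSeries (Fin r) 𝒪) * RingHom.ker χ)
    (hkey g hg (Ideal.mem_sup_left (hkerI hg)))

end Kernel

variable [IsAdicComplete (maximalIdeal 𝒪) 𝒪]

/-- The numerical criterion for a finite source. -/
theorem injective_of_length_le_finite {R T : Type} [CommRing R] [IsLocalRing R] [Algebra 𝒪 R]
    [Module.Finite 𝒪 R] [CommRing T] [Algebra 𝒪 T] [Module.IsTorsionFree 𝒪 T]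
    (φ : R →ₐ[𝒪] T) (hφ : Function.Surjective φ) (π : T →ₐ[𝒪] 𝒪)
    (hη : congruenceIdeal π ≠ ⊥)
    (hlen : Module.length 𝒪 (RingHom.ker (π.comp φ)).Cotangent ≤
      Module.length 𝒪 (𝒪 ⧸ congruenceIdeal π)) :
    Function.Injective φ := by
  set πR := π.comp φ with hπR
  have : IsLocalHom (algebraMap 𝒪 R) := ⟨fun a ha => by simpa using ha.map πR⟩
  have : IsNoetherianRing R := IsNoetherianRing.of_finite 𝒪 R
  have : IsAdicComplete (maximalIdeal R) R := IsLocalRing.isAdicComplete_of_module_finite (𝒪 := 𝒪)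
  obtain ⟨ϖ, hϖ⟩ := IsDiscreteValuationRing.exists_irreducible 𝒪
  -- a presentation `ψ` of `R` by power series in generators of the kernel of the point
  obtain ⟨r, a, ha⟩ := Submodule.fg_iff_exists_fin_generating_family.mp
    (IsNoetherian.noetherian (RingHom.ker πR))
  have hap : ∀ i, a i ∈ RingHom.ker πR := fun i => ha ▸ Submodule.subset_span ⟨i, rfl⟩
  obtain ⟨ψ, hψ⟩ := exists_algHom_mvPowerSeries (𝒪 := 𝒪) a fun i =>
    IsLocalRing.le_maximalIdeal (RingHom.ker_ne_top _) (hap i)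
  have hψsurj := surjective_of_span_range_eq_ker πR ha ψ hψ
  have hcc : ∀ g, π (φ (ψ g)) = MvPowerSeries.constantCoeff g :=
    algHom_eq_constantCoeff (πR.comp ψ) fun i => by
      rw [AlgHom.comp_apply, hψ]; exact RingHom.mem_ker.mp (hap i)
  have hJ : ∀ g ∈ RingHom.ker ψ, MvPowerSeries.constantCoeff g = 0 := fun g hg => by
    rw [← hcc, RingHom.mem_ker.mp hg, map_zero, map_zero]
  -- relations `f` with determinant `D`, whose value generates the congruence ideal
  obtain ⟨f, hfJ, hfmax, hford⟩ :=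
    exists_relations hϖ hJ (onlyMax_ker_sup_of_surjective hϖ ψ hψsurj)
  have hfcc : ∀ i, MvPowerSeries.constantCoeff (f i) = 0 := fun i => hJ _ (hfJ i)
  obtain ⟨D, hDdet, hD⟩ := exists_det_linPart f hfcc
  have hF : Ideal.span (Set.range f) ≤ RingHom.ker ψ :=
    Ideal.span_le.mpr (by rintro _ ⟨i, rfl⟩; exact hfJ i)
  have hδ : ∀ y, π y = 0 → φ (ψ D) * y = 0 := by
    intro y hy
    obtain ⟨x, rfl⟩ := hφ y
    obtain ⟨g, rfl⟩ := hψsurj x
    rw [← map_mul, ← map_mul, mul_comm, RingHom.mem_ker.mp (hF (hD g (hcc g ▸ hy))), map_zero]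
  have hgen : congruenceIdeal π = Ideal.span {π (φ (ψ D))} := by
    refine eq_span_singleton_of_ord_le hη ((mem_congruenceIdeal π).mpr ⟨_, hδ, rfl⟩) ?_
    rw [hcc, hDdet]
    exact hford.trans ((length_quotient_linPart_le ha ψ hψ hψsurj).trans hlen)
  refine (injective_iff_map_eq_zero φ).mpr fun x hx => ?_
  obtain ⟨g, rfl⟩ := hψsurj x
  exact RingHom.mem_ker.mp (hF (ker_le_span_relations hη (φ.comp ψ) hδ hgen hϖ f hfcc
    (fun i => by rw [AlgHom.comp_apply, RingHom.mem_ker.mp (hfJ i), map_zero]) hfmax hD hx))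

/-- The numerical criterion: `φ : R → T` is bijective. -/
theorem bijective_of_length_le {R T : Type} [CommRing R] [IsLocalRing R] [IsNoetherianRing R]
    [Algebra 𝒪 R] [CommRing T] [Algebra 𝒪 T] [Module.Finite 𝒪 T] [Module.IsTorsionFree 𝒪 T]
    (φ : R →ₐ[𝒪] T) (hφ : Function.Surjective φ) (π : T →ₐ[𝒪] 𝒪)
    (hη : congruenceIdeal π ≠ ⊥)
    (hlen : Module.length 𝒪 (RingHom.ker (π.comp φ)).Cotangent ≤
      Module.length 𝒪 (𝒪 ⧸ congruenceIdeal π)) :
    Function.Bijective φ := by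
  refine ⟨(injective_iff_map_eq_zero φ).mpr ?_, hφ⟩
  set K : Ideal R := RingHom.ker φ
  have hKm : K ≤ maximalIdeal R := IsLocalRing.le_maximalIdeal fun htop => by
    have h1 : φ (1 : R) = 0 := RingHom.mem_ker.mp (htop ▸ Submodule.mem_top : (1 : R) ∈ K)
    exact one_ne_zero (α := 𝒪) (by simpa using congrArg π h1)
  set I : Ideal R := maximalIdeal R * K with hI
  have hIK : I ≤ K := Ideal.mul_le_right
  let φ₁ : (R ⧸ I) →ₐ[𝒪] T := Ideal.Quotient.liftₐ I φ fun x hx => RingHom.mem_ker.mp (hIK hx)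
  have hφ₁ : Function.Surjective φ₁ := fun t => by
    obtain ⟨x, rfl⟩ := hφ t
    exact ⟨Ideal.Quotient.mk I x, rfl⟩
  have hπm : RingHom.ker (π.comp φ) ≤ maximalIdeal R :=
    IsLocalRing.le_maximalIdeal (RingHom.ker_ne_top _)
  have : Nontrivial (R ⧸ I) := Ideal.Quotient.nontrivial_iff.mpr fun htop =>
    (maximalIdeal.isMaximal R).ne_top (top_le_iff.mp (htop ▸ hIK.trans hKm))
  have : IsLocalRing (R ⧸ I) :=
    IsLocalRing.of_surjective' (Ideal.Quotient.mk I) Ideal.Quotient.mk_surjective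
  have : Module.Finite 𝒪 (R ⧸ I) := by
    obtain ⟨r, g, hg⟩ :=
        Submodule.fg_iff_exists_fin_generating_family.mp (IsNoetherian.noetherian K)
    let N : Submodule 𝒪 (R ⧸ I) := LinearMap.ker φ₁.toLinearMap
    have hN : N ≤ Submodule.span 𝒪 (Set.range fun i => Ideal.Quotient.mk I (g i)) := by
      intro y hy
      obtain ⟨x, rfl⟩ := Ideal.Quotient.mk_surjective y
      have hx : x ∈ K := RingHom.mem_ker.mpr hy
      obtain ⟨c, hc⟩ := (Submodule.mem_span_range_iff_exists_fun R).mp (hg ▸ hx)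
      rw [Submodule.mem_span_range_iff_exists_fun]
      refine ⟨fun i => π (φ (c i)), ?_⟩
      rw [← hc, map_sum]
      refine Finset.sum_congr rfl fun i _ => ?_
      show π (φ (c i)) • Ideal.Quotient.mk I (g i) = Ideal.Quotient.mk I (c i * g i)
      rw [Algebra.smul_def, ← Ideal.Quotient.mk_algebraMap, ← map_mul, Ideal.Quotient.eq, ← sub_mul]
      exact Ideal.mul_mem_mul (hπm (by simp)) (hg ▸ Submodule.subset_span ⟨i, rfl⟩)
    have hNfin : Module.Finite 𝒪 N := by
      have : Module.Finite 𝒪 (Submodule.span 𝒪 (Set.range fun i => Ideal.Quotient.mk I (g i))) :=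
        Module.Finite.span_of_finite 𝒪 (Set.finite_range _)
      exact Module.Finite.of_injective (Submodule.inclusion hN) (Submodule.inclusion_injective hN)
    have : Module.Finite 𝒪 ((R ⧸ I) ⧸ N) :=
      Module.Finite.equiv (φ₁.toLinearMap.quotKerEquivOfSurjective hφ₁).symm
    exact Module.Finite.of_submodule_quotient N
  let q : R →ₐ[𝒪] R ⧸ I := Ideal.Quotient.mkₐ 𝒪 I
  have hle : RingHom.ker (π.comp φ) ≤ (RingHom.ker (π.comp φ₁)).comap q := fun x hx =>
    RingHom.mem_ker.mpr (RingHom.mem_ker.mp hx)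
  have hsurj : Function.Surjective
      (Ideal.mapCotangent (RingHom.ker (π.comp φ)) (RingHom.ker (π.comp φ₁)) q hle) := by
    intro y
    obtain ⟨⟨y, hy⟩, rfl⟩ := Ideal.toCotangent_surjective _ y
    obtain ⟨x, rfl⟩ := Ideal.Quotient.mk_surjective y
    exact ⟨Ideal.toCotangent _ ⟨x, RingHom.mem_ker.mpr (RingHom.mem_ker.mp hy)⟩, rfl⟩
  have hinj := injective_of_length_le_finite φ₁ hφ₁ π hη
    ((Module.length_le_of_surjective _ hsurj).trans hlen)
  have hKI : K ≤ maximalIdeal R • K := fun x hx => by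
    have h : Ideal.Quotient.mk I x = 0 := hinj (a₂ := 0) (by
      rw [map_zero]; exact RingHom.mem_ker.mp hx)
    exact Ideal.Quotient.eq_zero_iff_mem.mp h
  have hK : K = ⊥ := le_bot_iff.mp (Submodule.le_of_le_smul_of_le_jacobson_bot
    (IsNoetherian.noetherian K) (maximalIdeal_le_jacobson _) (hKI.trans le_sup_right))
  exact fun x hx => (Submodule.mem_bot R).mp (hK ▸ RingHom.mem_ker.mpr hx)

end Fermat.Agent.NumCrit
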