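import Mathlib.RingTheory.Filtration
import Fermat.Agent.NumCrit.Criterion
import Fermat.Agent.Patching.PowerSeriesTopology

/-!
# Complete intersections: the cotangent space is bounded by the congruence ideal

Let `R = 𝒪⟦X₁, …, X_r⟧ / (f₁, …, f_r)` be finite and torsion free over a discrete valuation ring
`𝒪` and let `π : R → 𝒪` be a point. Then the length of the cotangent space at `π` is at most the
length of `𝒪 / π (Ann (ker π))`.

Move the point to the origin and write `f = A X`. Then `D = det A` annihilates `ker π`, the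
cotangent space is presented by `π (A)`, and `D` is not in `(ϖ, f₁, …, f_r)`: modulo `ϖ` one has
`X_i ^ N = B f`, and the coefficient of `∏ X_i ^ (N - 1)` in `det (B A)` is one while it vanishes
on the ideal `det B · (f)`.
-/

set_option autoImplicit false

namespace Fermat.Agent.NumCrit

open IsLocalRing MvPowerSeries Matrix

variable {r : ℕ}

section Coefficient

variable {k : Type} [CommRing k]

/-- An element of the ideal generated by some `X_l ^ N` has no monomial which is small in all these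
variables. -/
theorem coeff_eq_zero_of_mem_span_pow {S : Set (Fin r)} {N : ℕ} {g : MvPowerSeries (Fin r) k}
    (hg : g ∈ Ideal.span ((fun l => (X l : MvPowerSeries (Fin r) k) ^ N) '' S)) :
    ∀ e : Fin r →₀ ℕ, (∀ l ∈ S, e l < N) → coeff e g = 0 := by
  classical
  refine Submodule.span_induction ?_ ?_ ?_ ?_ hg
  · rintro _ ⟨l, hl, rfl⟩ e he
    show coeff e ((X l : MvPowerSeries (Fin r) k) ^ N) = 0
    rw [X_pow_eq, coeff_monomial, if_neg]
    intro h
    have := he l hl
    rw [h, Finsupp.single_eq_same] at this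
    exact lt_irrefl _ this
  · intro e _; exact map_zero _
  · intro a b _ _ ha hb e he
    rw [map_add, ha e he, hb e he, add_zero]
  · intro h a _ ha e he
    rw [smul_eq_mul, coeff_mul]
    refine Finset.sum_eq_zero fun p hp => ?_
    have hle : p.2 ≤ e := by
      rw [← Finset.HasAntidiagonal.mem_antidiagonal.mp hp]; exact le_add_self
    rw [ha p.2 fun l hl => lt_of_le_of_lt (hle l) (he l hl), mul_zero]

/-- If a matrix maps `X` to a vector `v`, then its determinant times `X i` is in the ideal generated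
by the entries of `v`. -/
theorem det_mul_mem_of_mulVec_eq {P : Type} [CommRing P] (W : Matrix (Fin r) (Fin r) P)
    (x v : Fin r → P) (h : W.mulVec x = v) (i : Fin r) {I : Ideal P} (hv : ∀ l, v l ∈ I) :
    W.det * x i ∈ I := by
  have h' : W.adjugate.mulVec v = W.det • x := by
    rw [← h, Matrix.mulVec_mulVec, Matrix.adjugate_mul, Matrix.smul_mulVec, Matrix.one_mulVec]
  have h'' := congrFun h' i
  simp only [Pi.smul_apply, smul_eq_mul] at h''
  rw [← h'', Matrix.mulVec, dotProduct]
  exact Submodule.sum_mem _ fun l _ => I.mul_mem_left _ (hv l)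

/-- If `M X = (X_i ^ (n + 1))` then the coefficient of `∏ X_i ^ n` in `det M` is one. -/
theorem coeff_det_eq_one (n : ℕ) (M : Matrix (Fin r) (Fin r) (MvPowerSeries (Fin r) k))
    (hM : M.mulVec X = fun i => X i ^ (n + 1)) :
    coeff (Finsupp.equivFunOnFinite.symm fun _ => n) M.det = 1 := by
  classical
  set μ : Fin r →₀ ℕ := Finsupp.equivFunOnFinite.symm fun _ => n with hμdef
  have hμ : ∀ l, μ l = n := fun l => rfl
  let M₀ : Matrix (Fin r) (Fin r) (MvPowerSeries (Fin r) k) :=
    Matrix.diagonal fun i => X i ^ n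
  have hM₀ : M₀.mulVec X = fun i => X i ^ (n + 1) := by
    funext i; rw [Matrix.mulVec_diagonal, pow_succ]
  let Ms : Finset (Fin r) → Matrix (Fin r) (Fin r) (MvPowerSeries (Fin r) k) := fun s =>
    Matrix.of fun i => if i ∈ s then M i else M₀ i
  suffices ∀ s, coeff μ (Ms s).det = 1 by
    have h := this Finset.univ
    have hu : Ms Finset.univ = M := by ext i j; simp [Ms]
    rwa [hu] at h
  intro s
  induction s using Finset.induction_on with
  | empty =>
    have hu : Ms ∅ = M₀ := by ext i j; simp [Ms]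
    rw [hu, Matrix.det_diagonal]
    have hprod : ∀ t : Finset (Fin r), ∏ i ∈ t, (X i : MvPowerSeries (Fin r) k) ^ n =
        monomial (∑ i ∈ t, Finsupp.single i n) 1 := by
      intro t
      induction t using Finset.induction_on with
      | empty => simp
      | insert j t hj ih =>
        rw [Finset.prod_insert hj, Finset.sum_insert hj, ih, X_pow_eq, monomial_mul_monomial,
          one_mul]
    have hsum : ∑ i, Finsupp.single i n = μ := by
      ext l; rw [hμ, Finsupp.finsetSum_apply]; simp [Finsupp.single_apply]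
    rw [hprod, hsum, coeff_monomial_same]
  | insert i s hi ih =>
    let W := (Ms s).updateRow i (M i - M₀ i)
    have h1 : Ms (insert i s) = (Ms s).updateRow i (Ms s i + (M i - M₀ i)) := by
      ext l m
      by_cases hl : l = i
      · subst hl; simp [Ms, hi]
      · simp [Ms, hl]
    rw [h1, Matrix.det_updateRow_add, Matrix.updateRow_eq_self, map_add, ih]
    suffices coeff μ W.det = 0 by rw [this, add_zero]
    have hWX : W.mulVec X = Function.update (fun l => (X l : MvPowerSeries (Fin r) k) ^ (n + 1))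
        i 0 := by
      funext l
      show (Ms s).updateRow i (M i - M₀ i) l ⬝ᵥ X = _
      by_cases hl : l = i
      · subst hl
        rw [Matrix.updateRow_self, Function.update_self, sub_dotProduct]
        exact sub_eq_zero.mpr ((congrFun hM l).trans (congrFun hM₀ l).symm)
      · rw [Matrix.updateRow_ne hl, Function.update_of_ne hl]
        by_cases hls : l ∈ s
        · rw [show Ms s l = M l from if_pos hls]; exact congrFun hM l
        · rw [show Ms s l = M₀ l from if_neg hls]; exact congrFun hM₀ l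
    have hmem : W.det * X i ∈ Ideal.span
        ((fun l => (X l : MvPowerSeries (Fin r) k) ^ (n + 1)) '' {l | l ≠ i}) := by
      refine det_mul_mem_of_mulVec_eq W X _ hWX i fun l => ?_
      by_cases hl : l = i
      · subst hl; simp
      · rw [Function.update_of_ne hl]; exact Ideal.subset_span ⟨l, hl, rfl⟩
    have h0 := coeff_eq_zero_of_mem_span_pow hmem (μ + Finsupp.single i 1) fun l hl => by
      rw [Finsupp.add_apply, Finsupp.single_eq_of_ne hl, hμ, add_zero]; exact Nat.lt_succ_self n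
    rwa [X, coeff_add_mul_monomial, mul_one] at h0

/-- If `f = A X` and all `X_i ^ (n + 1)` lie in `(f)`, then `det A` is not in `(f)`. -/
theorem det_notMem_span [Nontrivial k] (n : ℕ) (f : Fin r → MvPowerSeries (Fin r) k)
    (A : Matrix (Fin r) (Fin r) (MvPowerSeries (Fin r) k)) (hA : A.mulVec X = f)
    (hX : ∀ i, (X i : MvPowerSeries (Fin r) k) ^ (n + 1) ∈ Ideal.span (Set.range f)) :
    A.det ∉ Ideal.span (Set.range f) := by
  intro hmem
  choose B hB using fun i => Ideal.mem_span_range_iff_exists_fun.mp (hX i)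
  let B' : Matrix (Fin r) (Fin r) (MvPowerSeries (Fin r) k) := Matrix.of B
  have hBf : B'.mulVec f = fun i => X i ^ (n + 1) := funext fun i => hB i
  have h1 : (B' * A).mulVec X = fun i => X i ^ (n + 1) := by
    rw [← Matrix.mulVec_mulVec, hA, hBf]
  have h2 := coeff_det_eq_one n _ h1
  set Z := Ideal.span
    ((fun l => (X l : MvPowerSeries (Fin r) k) ^ (n + 1)) '' Set.univ) with hZ
  have hle : Ideal.span (Set.range f) ≤ Z.colon {B'.det} := by
    rw [Ideal.span_le]
    rintro _ ⟨j, rfl⟩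
    rw [SetLike.mem_coe, Submodule.mem_colon_singleton, smul_eq_mul, mul_comm]
    exact det_mul_mem_of_mulVec_eq B' f _ hBf j fun l =>
      Ideal.subset_span ⟨l, Set.mem_univ l, rfl⟩
  have h3 : (B' * A).det ∈ Z := by
    have := hle hmem
    rw [Submodule.mem_colon_singleton, smul_eq_mul, mul_comm] at this
    rwa [Matrix.det_mul]
  rw [coeff_eq_zero_of_mem_span_pow h3 (Finsupp.equivFunOnFinite.symm fun _ => n)
    fun l _ => Nat.lt_succ_self n] at h2
  exact zero_ne_one h2

end Coefficient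

variable {𝒪 : Type} [CommRing 𝒪] [IsDomain 𝒪] [IsDiscreteValuationRing 𝒪]

/-- The kernel of the evaluation at a point of the open unit polydisc. -/
theorem mem_span_X_sub_C_of_eq_zero (χ : MvPowerSeries (Fin r) 𝒪 →ₐ[𝒪] 𝒪) (c : Fin r → 𝒪)
    (hc : ∀ j, c j ∈ maximalIdeal 𝒪) {g : MvPowerSeries (Fin r) 𝒪} (hg : χ g = 0)
    (hcχ : ∀ j, χ (X j) = c j) :
    g ∈ Ideal.span (Set.range fun j => (X j : MvPowerSeries (Fin r) 𝒪) - C (c j)) := by
  obtain ⟨ϖ, hϖ⟩ := IsDiscreteValuationRing.exists_irreducible 𝒪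
  set J := Ideal.span (Set.range fun j => (X j : MvPowerSeries (Fin r) 𝒪) - C (c j)) with hJ
  have hCalg : ∀ a : 𝒪, (C a : MvPowerSeries (Fin r) 𝒪) =
      algebraMap 𝒪 (MvPowerSeries (Fin r) 𝒪) a := fun _ => rfl
  have hJ0 : ∀ y ∈ J, χ y = 0 := by
    intro y hy
    have : J ≤ RingHom.ker χ := Ideal.span_le.mpr (by
      rintro _ ⟨j, rfl⟩
      simp only [SetLike.mem_coe, RingHom.mem_ker, map_sub, hCalg, AlgHom.commutes, hcχ]
      simp)
    exact RingHom.mem_ker.mp (this hy)
  have step : ∀ g : MvPowerSeries (Fin r) 𝒪, ∃ a h, g - C a - C ϖ * h ∈ J := by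
    intro g
    obtain ⟨h, hh⟩ := Ideal.mem_span_range_iff_exists_fun.mp (sub_C_mem_span_X g)
    choose b hb using fun j => Ideal.mem_span_singleton'.mp (hϖ.maximalIdeal_eq ▸ hc j)
    refine ⟨constantCoeff g, ∑ j, h j * C (b j), ?_⟩
    rw [← hh, Finset.mul_sum, ← Finset.sum_sub_distrib]
    refine Submodule.sum_mem _ fun j _ => ?_
    have : h j * X j - C ϖ * (h j * C (b j)) = h j * (X j - C (c j)) := by
      rw [← hb j, map_mul]; ring
    rw [this]
    exact J.mul_mem_left _ (Ideal.subset_span ⟨j, rfl⟩)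
  have hiter : ∀ n : ℕ, ∃ a h, g - C a - C (ϖ ^ n) * h ∈ J := by
    intro n
    induction n with
    | zero => exact ⟨0, g, by simp⟩
    | succ n ih =>
      obtain ⟨a, h, hah⟩ := ih
      obtain ⟨a', h', hah'⟩ := step h
      refine ⟨a + ϖ ^ n * a', h', ?_⟩
      have := add_mem hah (J.mul_mem_left (C (ϖ ^ n)) hah')
      convert this using 1
      rw [pow_succ, map_add, map_mul, map_mul]; ring
  set M := maximalIdeal (MvPowerSeries (Fin r) 𝒪)
  have hCm : C ϖ ∈ M := by
    simpa [M, MvPowerSeries.isUnit_iff_constantCoeff] using hϖ.not_isUnit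
  have hpow : ∀ n : ℕ, ∃ m ∈ M ^ n, g - m ∈ J := by
    intro n
    obtain ⟨a, h, hah⟩ := hiter n
    refine ⟨C a + C (ϖ ^ n) * h, add_mem ?_ (Ideal.mul_mem_right _ _ ?_), by rwa [← sub_sub]⟩
    · have h0 := hJ0 _ hah
      simp only [map_sub, map_mul, hCalg, AlgHom.commutes, hg] at h0
      have ha : a = ϖ ^ n * (-χ h) := by
        simp only [Algebra.algebraMap_self, RingHom.id_apply] at h0
        linear_combination -h0
      rw [ha, map_mul]
      exact Ideal.mul_mem_right _ _ (by rw [map_pow]; exact Ideal.pow_mem_pow hCm n)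
    · rw [map_pow]; exact Ideal.pow_mem_pow hCm n
  have hbot := Ideal.iInf_pow_smul_eq_bot_of_isLocalRing
    (M := MvPowerSeries (Fin r) 𝒪 ⧸ J) M (maximalIdeal.isMaximal _).ne_top
  have hmem : Submodule.Quotient.mk g ∈ (⨅ n : ℕ, M ^ n •
      (⊤ : Submodule (MvPowerSeries (Fin r) 𝒪) (MvPowerSeries (Fin r) 𝒪 ⧸ J))) := by
    refine (Submodule.mem_iInf _).mpr fun n => ?_
    obtain ⟨m, hm, hgm⟩ := hpow n
    have heq : (Submodule.Quotient.mk g : MvPowerSeries (Fin r) 𝒪 ⧸ J) =
        m • Submodule.Quotient.mk 1 := by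
      rw [← Submodule.Quotient.mk_smul, smul_eq_mul, mul_one]
      exact (Submodule.Quotient.eq J).mpr hgm
    rw [heq]
    exact Submodule.smul_mem_smul hm trivial
  rw [hbot, Submodule.mem_bot, Submodule.Quotient.mk_eq_zero] at hmem
  exact hmem

omit [IsDomain 𝒪] [IsDiscreteValuationRing 𝒪] in
/-- A point of the power series ring sends the variables to the maximal ideal. -/
theorem algHom_apply_X_mem_maximalIdeal [IsLocalRing 𝒪] (χ : MvPowerSeries (Fin r) 𝒪 →ₐ[𝒪] 𝒪)
    (j : Fin r) : χ (X j) ∈ maximalIdeal 𝒪 := by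
  rw [mem_maximalIdeal, mem_nonunits_iff]
  intro hu
  have hu' : IsUnit ((X j : MvPowerSeries (Fin r) 𝒪) - C (χ (X j))) := by
    rw [MvPowerSeries.isUnit_iff_constantCoeff, map_sub, constantCoeff_X, constantCoeff_C,
      zero_sub]
    exact hu.neg
  have := hu'.map χ
  rw [map_sub, c_eq_algebraMap, AlgHom.commutes] at this
  exact absurd this (by simp)

/-- If the ideal of the variables at a point of a quotient `R` of the power series ring contains
relations `f = A Y`, the cotangent space at the point is at most as long as the order of the value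
of `det A`. -/
theorem length_cotangent_le_ord_det {R : Type} [CommRing R] [Algebra 𝒪 R]
    (ψ : MvPowerSeries (Fin r) 𝒪 →ₐ[𝒪] R) (hψ : Function.Surjective ψ) (π : R →ₐ[𝒪] 𝒪)
    {Y : Fin r → MvPowerSeries (Fin r) 𝒪} (hY : ∀ j, π (ψ (Y j)) = 0)
    (hker : ∀ g, π (ψ g) = 0 → g ∈ Ideal.span (Set.range Y))
    (A : Matrix (Fin r) (Fin r) (MvPowerSeries (Fin r) 𝒪)) (hA : ∀ i, ψ (A.mulVec Y i) = 0) :
    Module.length 𝒪 (RingHom.ker π).Cotangent ≤ Ring.ord 𝒪 (π (ψ A.det)) := by
  set χ : MvPowerSeries (Fin r) 𝒪 →ₐ[𝒪] 𝒪 := π.comp ψ with hχ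
  set I := RingHom.ker π with hI
  have hψY : ∀ j, ψ (Y j) ∈ I := fun j => RingHom.mem_ker.mpr (hY j)
  let g : Fin r → I.Cotangent := fun j => I.toCotangent ⟨ψ (Y j), hψY j⟩
  have hsmul : ∀ (a : R) (x : I), I.toCotangent (a • x) = π a • I.toCotangent x := by
    intro a x
    rw [← LinearMap.map_smul_of_tower, Ideal.toCotangent_eq]
    have hmem : (a - algebraMap 𝒪 R (π a)) * (x : R) ∈ I ^ 2 := by
      rw [pow_two]
      exact Ideal.mul_mem_mul (RingHom.mem_ker.mpr (by simp)) x.2
    simpa [sub_mul, Algebra.smul_def] using hmem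
  have hlin : ∀ (h : Fin r → MvPowerSeries (Fin r) 𝒪) (w : I),
      (w : R) = ψ (∑ j, h j * Y j) → I.toCotangent w = ∑ j, χ (h j) • g j := by
    intro h w hw
    have hw' : w = ∑ j, ψ (h j) • (⟨ψ (Y j), hψY j⟩ : I) := by
      refine Subtype.ext ?_
      simp [hw]
    rw [hw', map_sum]
    exact Finset.sum_congr rfl fun j _ => hsmul _ _
  have hg : Submodule.span 𝒪 (Set.range g) = ⊤ := by
    refine top_le_iff.mp fun y _ => ?_
    obtain ⟨w, rfl⟩ := I.toCotangent_surjective y
    obtain ⟨p, hp⟩ := hψ (w : R)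
    obtain ⟨h, hh⟩ := Ideal.mem_span_range_iff_exists_fun.mp (hker p (by rw [hp]; exact w.2))
    rw [hlin h w (by rw [hh, hp])]
    exact Submodule.sum_mem _ fun j _ => Submodule.smul_mem _ _ (Submodule.subset_span ⟨j, rfl⟩)
  have hrel : ∀ i, ∑ j, (A.map χ) i j • g j = 0 := by
    intro i
    have h0 := hlin (A i) 0 (hA i).symm
    rw [map_zero] at h0
    exact h0.symm
  refine (length_le_ord_det g hg _ hrel).trans (le_of_eq (congrArg _ ?_))
  rw [← AlgHom.comp_apply, ← hχ]
  exact (RingHom.map_det χ.toRingHom A).symm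

/-- In a finite presentation by `r` relations `f = A (X - c)` the determinant of `A` is not in the
ideal of the relations and a uniformiser. -/
theorem det_notMem_span_sup_C {R : Type} [CommRing R] [IsLocalRing R] [Algebra 𝒪 R]
    [Module.Finite 𝒪 R] (ψ : MvPowerSeries (Fin r) 𝒪 →ₐ[𝒪] R) (hψ : Function.Surjective ψ)
    (f : Fin r → MvPowerSeries (Fin r) 𝒪) (hf : RingHom.ker ψ = Ideal.span (Set.range f))
    {ϖ : 𝒪} (hϖ : Irreducible ϖ) (c : Fin r → 𝒪) (hc : ∀ j, c j ∈ maximalIdeal 𝒪)
    (A : Matrix (Fin r) (Fin r) (MvPowerSeries (Fin r) 𝒪))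
    (hA : A.mulVec (fun j => X j - C (c j)) = f) :
    A.det ∉ Ideal.span (Set.range f) ⊔ Ideal.span {C ϖ} := by
  set J := Ideal.span (Set.range f) ⊔ Ideal.span {(C ϖ : MvPowerSeries (Fin r) 𝒪)} with hJ
  have hmax : OnlyMax J := by rw [hJ, ← hf]; exact onlyMax_ker_sup_of_surjective hϖ ψ hψ
  have hrad : maximalIdeal (MvPowerSeries (Fin r) 𝒪) ≤ J.radical := by
    rw [Ideal.radical_eq_sInf]
    exact le_sInf fun Q ⟨hle, hQ⟩ => (hmax Q hQ hle).ge
  choose N hN using fun i : Fin r => hrad
    (Patching.span_X_le_maximalIdeal (Ideal.subset_span ⟨i, rfl⟩) :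
      (X i : MvPowerSeries (Fin r) 𝒪) ∈ maximalIdeal _)
  intro hDJ
  set ρ : MvPowerSeries (Fin r) 𝒪 →+* MvPowerSeries (Fin r) (ResidueField 𝒪) :=
    MvPowerSeries.map (residue 𝒪) with hρ
  have hρC : ∀ a ∈ maximalIdeal 𝒪, ρ (C a) = 0 := fun a ha => by
    rw [hρ, MvPowerSeries.map_C, (residue_eq_zero_iff a).mpr ha, map_zero]
  have hρJ : J ≤ (Ideal.span (Set.range fun i => ρ (f i))).comap ρ := by
    refine sup_le (Ideal.span_le.mpr ?_) ((Ideal.span_singleton_le_iff_mem _).mpr ?_)
    · rintro _ ⟨i, rfl⟩; exact Ideal.subset_span ⟨i, rfl⟩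
    · rw [Ideal.mem_comap, hρC ϖ (hϖ.maximalIdeal_eq ▸ Ideal.mem_span_singleton_self ϖ)]
      exact zero_mem _
  have hρA : (A.map ρ).mulVec X = fun i => ρ (f i) := by
    funext i
    rw [← congrFun hA i, Matrix.mulVec, Matrix.mulVec, dotProduct, dotProduct, map_sum]
    refine Finset.sum_congr rfl fun j _ => ?_
    rw [map_mul, map_sub, hρC _ (hc j), sub_zero, Matrix.map_apply, hρ, MvPowerSeries.map_X]
  refine det_notMem_span (∑ i, N i) (fun i => ρ (f i)) (A.map ρ) hρA (fun i => ?_) ?_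
  · have := hρJ (J.pow_mem_of_mem (hN i) 1 one_pos)
    rw [Ideal.mem_comap, pow_one, map_pow, hρ, MvPowerSeries.map_X] at this
    exact (Ideal.span _).pow_mem_of_pow_mem this
      ((Finset.single_le_sum (f := N) (fun j _ => Nat.zero_le _) (Finset.mem_univ i)).trans
        (Nat.le_succ _))
  · have hdet : (A.map ρ).det = ρ A.det := (RingHom.map_det ρ A).symm
    rw [hdet]
    exact hρJ hDJ

/-- An element annihilating the kernel of a point which is not divisible by a uniformiser generates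
the congruence ideal by its value. -/
theorem congruenceIdeal_eq_span_of_not_dvd {T : Type} [CommRing T] [Algebra 𝒪 T]
    [Module.IsTorsionFree 𝒪 T] {π : T →ₐ[𝒪] 𝒪} (hη : congruenceIdeal π ≠ ⊥) {δ : T}
    (hδ : ∀ y, π y = 0 → δ * y = 0) {ϖ : 𝒪} (hϖ : Irreducible ϖ) (hdvd : ∀ t, ϖ • t ≠ δ) :
    congruenceIdeal π = Ideal.span {π δ} := by
  obtain ⟨k, hk⟩ := IsDiscreteValuationRing.ideal_eq_span_pow_irreducible hη hϖ
  obtain ⟨t, htann, htk⟩ := (mem_congruenceIdeal π).mp
    (hk ▸ Ideal.mem_span_singleton_self (ϖ ^ k) : ϖ ^ k ∈ congruenceIdeal π)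
  obtain ⟨u, hu⟩ := Ideal.mem_span_singleton'.mp
    (hk ▸ (mem_congruenceIdeal π).mpr ⟨δ, hδ, rfl⟩ : π δ ∈ Ideal.span {ϖ ^ k})
  have hdiff : δ - u • t = 0 := by
    refine eq_zero_of_mem_ker_of_mem_annihilator π hη ?_ fun y hy => ?_
    · rw [map_sub, map_smul, htk, smul_eq_mul, hu, sub_self]
    · rw [sub_mul, smul_mul_assoc, hδ y hy, htann y hy, smul_zero, sub_zero]
  have huu : IsUnit u := by
    by_contra hnot
    obtain ⟨u', rfl⟩ := Ideal.mem_span_singleton'.mp
      (hϖ.maximalIdeal_eq ▸ (mem_maximalIdeal u).mpr hnot)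
    exact hdvd (u' • t) (by rw [smul_smul, mul_comm, ← sub_eq_zero.mp hdiff])
  rw [hk, ← hu, Ideal.span_singleton_mul_left_unit huu]

/-- **Complete intersections**: the cotangent space at any point is at most as long as the
congruence module. -/
theorem length_cotangent_le_congruence {R : Type} [CommRing R] [Algebra 𝒪 R] [Module.Finite 𝒪 R]
    [Module.IsTorsionFree 𝒪 R] (ψ : MvPowerSeries (Fin r) 𝒪 →ₐ[𝒪] R)
    (hψ : Function.Surjective ψ) (f : Fin r → MvPowerSeries (Fin r) 𝒪)
    (hf : RingHom.ker ψ = Ideal.span (Set.range f)) (π : R →ₐ[𝒪] 𝒪) :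
    Module.length 𝒪 (RingHom.ker π).Cotangent ≤
      Module.length 𝒪 (𝒪 ⧸ congruenceIdeal π) := by
  classical
  by_cases hη : congruenceIdeal π = ⊥
  · have h : Module.length 𝒪 (𝒪 ⧸ congruenceIdeal π) = ⊤ := by
      rw [hη, ← Ideal.span_singleton_zero, ← Ring.ord, ord_zero_eq_top]
    rw [h]; exact le_top
  obtain ⟨ϖ, hϖ⟩ := IsDiscreteValuationRing.exists_irreducible 𝒪
  have : Nontrivial R := π.toRingHom.domain_nontrivial
  have : IsLocalRing R := IsLocalRing.of_surjective' ψ.toRingHom hψ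
  -- the point `c`, and `f = A (X - c)`
  set c : Fin r → 𝒪 := fun j => π (ψ (X j)) with hcdef
  have hc : ∀ j, c j ∈ maximalIdeal 𝒪 := algHom_apply_X_mem_maximalIdeal (π.comp ψ)
  set Y : Fin r → MvPowerSeries (Fin r) 𝒪 := fun j => X j - C (c j) with hY
  have hker : ∀ g, π (ψ g) = 0 → g ∈ Ideal.span (Set.range Y) := fun g hg =>
    mem_span_X_sub_C_of_eq_zero (π.comp ψ) c hc hg fun j => rfl
  have hψF : ∀ g ∈ Ideal.span (Set.range f), ψ g = 0 := fun g hg => RingHom.mem_ker.mp (hf.ge hg)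
  have hψf : ∀ i, ψ (f i) = 0 := fun i => hψF _ (Ideal.subset_span ⟨i, rfl⟩)
  choose A hA using fun i => Ideal.mem_span_range_iff_exists_fun.mp
    (hker (f i) (by rw [hψf i, map_zero]))
  let A' : Matrix (Fin r) (Fin r) (MvPowerSeries (Fin r) 𝒪) := Matrix.of A
  have hAY : A'.mulVec Y = f := funext fun i => hA i
  -- `ψ (det A)` kills the kernel of `π` and is not divisible by `ϖ`
  have hδann : ∀ y, π y = 0 → ψ A'.det * y = 0 := by
    intro y hy
    obtain ⟨g, rfl⟩ := hψ y
    obtain ⟨h, hh⟩ := Ideal.mem_span_range_iff_exists_fun.mp (hker g hy)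
    rw [← map_mul]
    refine hψF _ ?_
    rw [← hh, Finset.mul_sum]
    refine Submodule.sum_mem _ fun j _ => ?_
    rw [mul_left_comm]
    exact Ideal.mul_mem_left _ _
      (det_mul_mem_of_mulVec_eq A' Y f hAY j fun l => Ideal.subset_span ⟨l, rfl⟩)
  have hdvd : ∀ t, ϖ • t ≠ ψ A'.det := by
    intro t ht
    obtain ⟨T₀, rfl⟩ := hψ t
    refine det_notMem_span_sup_C ψ hψ f hf hϖ c hc A' hAY ?_
    have hmem : A'.det - C ϖ * T₀ ∈ Ideal.span (Set.range f) := by
      rw [← hf, RingHom.mem_ker, map_sub, map_mul, c_eq_algebraMap, AlgHom.commutes,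
        ← Algebra.smul_def, ht, sub_self]
    rw [← sub_add_cancel A'.det (C ϖ * T₀)]
    exact add_mem (Ideal.mem_sup_left hmem)
      (Ideal.mem_sup_right (Ideal.mem_span_singleton'.mpr ⟨T₀, mul_comm _ _⟩))
  rw [congruenceIdeal_eq_span_of_not_dvd hη hδann hϖ hdvd, ← Ring.ord]
  exact length_cotangent_le_ord_det ψ hψ π
    (fun j => by simp [hY, hcdef, c_eq_algebraMap]) hker A' fun i => by rw [hAY, hψf]

end Fermat.Agent.NumCrit
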