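import Mathlib.RingTheory.Filtration
import Mathlib.RingTheory.Ideal.MinimalPrime.Noetherian
import Mathlib.RingTheory.Ideal.GoingUp
import Mathlib.LinearAlgebra.Dimension.Finite
import Mathlib.Algebra.Module.Torsion.Basic
import Fermat.Agent.NumCrit.Criterion

/-!
# Congruence ideals and change of level

The congruence ideal of a point `π` of a finite reduced algebra is nonzero and is transported along
isomorphisms. Let `ρ : T' → T` be a map of algebras and `i : M → M'` a `ρ`-equivariant map from a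
free `T`-module. Injectivity modulo `ϖ` gives injectivity and saturation of the image, and a bound
on the rank of the part of `M'` killed by `ker (π ∘ ρ)` puts a multiple of that part in the image.
If the congruence ideal of `π ∘ ρ` lies in `π Δ` times that of `π` and the cotangent space grows by
at most `ord (π Δ)`, the numerical criterion propagates `R = T` to `R' = T'`.
-/

set_option autoImplicit false

namespace Fermat.Agent.NumCrit

open IsLocalRing

section NeBot

variable {𝒪 : Type} [CommRing 𝒪] [IsDomain 𝒪]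

/-- The congruence ideal of a point of a finite reduced algebra is not zero. -/
theorem congruenceIdeal_ne_bot {T : Type} [CommRing T] [Algebra 𝒪 T] [Module.Finite 𝒪 T]
    [IsNoetherianRing 𝒪] [IsReduced T] (π : T →ₐ[𝒪] 𝒪) : congruenceIdeal π ≠ ⊥ := by
  classical
  have : IsNoetherianRing T := IsNoetherianRing.of_finite 𝒪 T
  set p := RingHom.ker π with hp
  have hpp : p.IsPrime := RingHom.ker_isPrime π
  have hmin : ∀ q : Ideal T, q.IsPrime → q ≤ p → q = p := by
    intro q hq hle
    by_contra hne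
    have hlt := Ideal.IsIntegral.comap_lt_comap (R := 𝒪) (lt_of_le_of_ne hle hne)
    obtain ⟨c, hc, hcq⟩ := SetLike.exists_of_lt hlt
    have hc0 : c = 0 := by simpa [hp] using hc
    exact hcq (hc0 ▸ zero_mem _)
  let s := ((⊥ : Ideal T).finite_minimalPrimes_of_isNoetherianRing).toFinset.filter (· ≠ p)
  have hnot : ¬ (∏ q ∈ s, q) ≤ p := by
    intro hle
    obtain ⟨q, hq, hqp⟩ := (Ideal.IsPrime.prod_le hpp).mp hle
    obtain ⟨hqm, hne⟩ := Finset.mem_filter.mp hq
    rw [Set.Finite.mem_toFinset] at hqm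
    exact hne (hmin q hqm.1.1 hqp)
  obtain ⟨t, ht, htp⟩ := SetLike.not_le_iff_exists.mp hnot
  have hann : ∀ y, π y = 0 → t * y = 0 := by
    intro y hy
    have hmem : t * y ∈ sInf (⊥ : Ideal T).minimalPrimes := by
      rw [Submodule.mem_sInf]
      intro q hq
      by_cases hqp : q = p
      · subst hqp; exact Ideal.mul_mem_left _ _ (RingHom.mem_ker.mpr hy)
      · refine Ideal.mul_mem_right _ _ ((Ideal.prod_le_inf.trans (Finset.inf_le ?_)) ht)
        simp only [s, Finset.mem_filter, Set.Finite.mem_toFinset]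
        exact ⟨hq, hqp⟩
    rw [Ideal.sInf_minimalPrimes] at hmem
    exact IsReduced.eq_zero _ hmem
  intro h
  have hmem : π t ∈ congruenceIdeal π := (mem_congruenceIdeal π).mpr ⟨t, hann, rfl⟩
  rw [h, Submodule.mem_bot] at hmem
  exact htp (RingHom.mem_ker.mpr hmem)

end NeBot

section Descent

variable {𝒪 : Type} [CommRing 𝒪]

/-- A second action through which an injective map is equivariant factors through the first. -/
theorem exists_algHom_of_equivariant {A T T' : Type} [CommRing A] [Algebra 𝒪 A] [CommRing T]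
    [Algebra 𝒪 T] [CommRing T'] [Algebra 𝒪 T'] (α : A →ₐ[𝒪] T') (hα : Function.Surjective α)
    (β : A →ₐ[𝒪] T) {M M' : Type} [AddCommGroup M] [Module T M] [FaithfulSMul T M]
    [AddCommGroup M'] [Module T' M'] (i : M →+ M') (hinj : Function.Injective i)
    (hi : ∀ a m, i (β a • m) = α a • i m) : ∃ ρ : T' →ₐ[𝒪] T, ρ.comp α = β := by
  have hker : ∀ a, a ∈ RingHom.ker α → β a = 0 := by
    intro a ha
    refine FaithfulSMul.eq_of_smul_eq_smul (α := M) fun m => hinj ?_
    rw [hi, RingHom.mem_ker.mp ha, zero_smul, zero_smul, map_zero]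
  refine ⟨(Ideal.Quotient.liftₐ _ β hker).comp
    (Ideal.quotientKerAlgEquivOfSurjective hα).symm.toAlgHom, AlgHom.ext fun a => ?_⟩
  have h : (Ideal.quotientKerAlgEquivOfSurjective hα).symm (α a) = Ideal.Quotient.mk _ a := by
    rw [AlgEquiv.symm_apply_eq]; rfl
  show Ideal.Quotient.liftₐ _ β hker ((Ideal.quotientKerAlgEquivOfSurjective hα).symm (α a)) = β a
  rw [h]
  exact Ideal.Quotient.lift_mk _ _ _

end Descent

/-- The congruence ideal is transported along isomorphisms. -/
theorem congruenceIdeal_comp_of_bijective {𝒪 R T : Type} [CommRing 𝒪] [CommRing R] [Algebra 𝒪 R]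
    [CommRing T] [Algebra 𝒪 T] (φ : R →ₐ[𝒪] T) (hφ : Function.Bijective φ) (π : T →ₐ[𝒪] 𝒪) :
    congruenceIdeal (π.comp φ) = congruenceIdeal π := by
  ext c
  simp only [mem_congruenceIdeal, AlgHom.comp_apply]
  constructor
  · rintro ⟨t, ht, rfl⟩
    refine ⟨φ t, fun y hy => ?_, rfl⟩
    obtain ⟨x, rfl⟩ := hφ.2 y
    rw [← map_mul, ht x hy, map_zero]
  · rintro ⟨t, ht, rfl⟩
    obtain ⟨x, rfl⟩ := hφ.2 t
    exact ⟨x, fun y hy => hφ.1 (by rw [map_mul, ht _ hy, map_zero]), rfl⟩

variable {𝒪 : Type} [CommRing 𝒪] [IsDomain 𝒪] [IsDiscreteValuationRing 𝒪]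

section Saturation

variable {M M' : Type} [AddCommGroup M] [Module 𝒪 M] [AddCommGroup M'] [Module 𝒪 M']

/-- A map which is injective modulo `ϖ` into a torsion-free module is injective. -/
theorem injective_of_injective_mod [Module.Finite 𝒪 M] [Module.IsTorsionFree 𝒪 M']
    (i : M →ₗ[𝒪] M') {ϖ : 𝒪} (hϖ : Irreducible ϖ)
    (hmod : ∀ m x, i m = ϖ • x → ∃ m', m = ϖ • m') : Function.Injective i := by
  rw [injective_iff_map_eq_zero]
  intro m hm
  have hpow : ∀ n : ℕ, ∃ m', m = ϖ ^ n • m' ∧ i m' = 0 := by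
    intro n
    induction n with
    | zero => exact ⟨m, by simp, hm⟩
    | succ n ih =>
      obtain ⟨m', hmm, hm'⟩ := ih
      obtain ⟨m'', hm''⟩ := hmod m' 0 (by rw [hm', smul_zero])
      refine ⟨m'', by rw [hmm, hm'', smul_smul, pow_succ], ?_⟩
      rw [hm'', map_smul] at hm'
      exact (smul_eq_zero.mp hm').resolve_left hϖ.ne_zero
  have hmem : m ∈ (⨅ n : ℕ, maximalIdeal 𝒪 ^ n • (⊤ : Submodule 𝒪 M)) := by
    refine (Submodule.mem_iInf _).mpr fun n => ?_
    obtain ⟨m', rfl, -⟩ := hpow n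
    exact Submodule.smul_mem_smul
      (Ideal.pow_mem_pow (hϖ.maximalIdeal_eq ▸ Ideal.mem_span_singleton_self ϖ) n) trivial
  rwa [Ideal.iInf_pow_smul_eq_bot_of_isLocalRing _ (maximalIdeal.isMaximal 𝒪).ne_top,
    Submodule.mem_bot] at hmem

/-- A map which is injective modulo `ϖ` into a torsion-free module has saturated image. -/
theorem saturated_of_injective_mod [Module.IsTorsionFree 𝒪 M'] (i : M →ₗ[𝒪] M') {ϖ : 𝒪}
    (hϖ : Irreducible ϖ) (hmod : ∀ m x, i m = ϖ • x → ∃ m', m = ϖ • m') :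
    ∀ (c : 𝒪) (x : M'), c ≠ 0 → c • x ∈ LinearMap.range i → x ∈ LinearMap.range i := by
  intro c x hc hx
  obtain ⟨n, u, rfl⟩ := IsDiscreteValuationRing.eq_unit_mul_pow_irreducible hc hϖ
  have hx' : ϖ ^ n • x ∈ LinearMap.range i := by
    have := Submodule.smul_mem _ (↑u⁻¹ : 𝒪) hx
    rwa [smul_smul, ← mul_assoc, Units.inv_mul, one_mul] at this
  clear hx hc
  induction n generalizing x with
  | zero => simpa using hx'
  | succ n ih =>
    rw [pow_succ, mul_smul] at hx'
    obtain ⟨m, hm⟩ := ih (ϖ • x) hx'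
    obtain ⟨m', rfl⟩ := hmod m x hm
    rw [map_smul] at hm
    exact ⟨m', smul_right_injective M' hϖ.ne_zero hm⟩

end Saturation

section Level

variable {T T' : Type} [CommRing T] [Algebra 𝒪 T] [CommRing T'] [Algebra 𝒪 T']
  (ρ : T' →ₐ[𝒪] T) (π : T →ₐ[𝒪] 𝒪)
  {M M' : Type} [AddCommGroup M] [Module 𝒪 M] [Module T M] [IsScalarTower 𝒪 T M]
  [AddCommGroup M'] [Module 𝒪 M'] [Module T' M']
  (i : M →ₗ[𝒪] M') (hi : ∀ t m, i (ρ t • m) = t • i m)

include hi in
/-- If the part of `M'` killed by `ker (π ∘ ρ)` has rank at most that of `M`, some nonzero multiple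
of each of its elements lies in the image of `M`. -/
theorem exists_smul_mem_range_of_finrank_le [Module.Free T M] [Module.Finite T M]
    [Module.IsTorsionFree 𝒪 T] [IsScalarTower 𝒪 T' M'] [Module.Finite 𝒪 M']
    (hη : congruenceIdeal π ≠ ⊥) (hinj : Function.Injective i)
    (hfin : Module.finrank 𝒪
        ((Submodule.torsionBySet T' M' (RingHom.ker (π.comp ρ) : Set T')).restrictScalars 𝒪) ≤
      Module.finrank T M) :
    ∀ x : M', (∀ t, π (ρ t) = 0 → t • x = 0) →
      ∃ c : 𝒪, c ≠ 0 ∧ c • x ∈ LinearMap.range i := by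
  intro x hx
  have : Nontrivial T := π.toRingHom.domain_nontrivial
  obtain ⟨c₀, hc₀, hc₀0⟩ := Submodule.exists_mem_ne_zero_of_ne_bot hη
  obtain ⟨t₀, ht₀, rfl⟩ := (mem_congruenceIdeal π).mp hc₀
  let b := Module.Free.chooseBasis T M
  let g : (Module.Free.ChooseBasisIndex T M → 𝒪) →ₗ[𝒪] M :=
    Fintype.linearCombination 𝒪 fun l => t₀ • b l
  have hg : Function.Injective g := by
    rw [injective_iff_map_eq_zero]
    intro a ha
    funext l
    have h := congrArg (fun m => b.repr m l) ha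
    have hterm : ∀ q, a q • t₀ • b q = (a q • t₀) • b q := fun q => (smul_assoc _ _ _).symm
    simp only [g, Fintype.linearCombination_apply, hterm, map_zero, Finsupp.coe_zero,
      Pi.zero_apply, b.repr_sum_self] at h
    exact (smul_eq_zero.mp h).resolve_right fun h0 => hc₀0 (by rw [h0, map_zero])
  set N := (Submodule.torsionBySet T' M' (RingHom.ker (π.comp ρ) : Set T')).restrictScalars 𝒪
    with hN
  have hgN : ∀ a, i (g a) ∈ N := by
    intro a
    rw [hN, Submodule.restrictScalars_mem, Submodule.mem_torsionBySet_iff]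
    rintro ⟨t, ht⟩
    simp only [SetLike.mem_coe, RingHom.mem_ker, AlgHom.comp_apply] at ht
    rw [← hi]
    suffices ρ t • g a = 0 by rw [this, map_zero]
    simp only [g, Fintype.linearCombination_apply, Finset.smul_sum, smul_comm (ρ t) (a _),
      smul_smul (ρ t), mul_comm (ρ t), ht₀ _ ht, zero_smul, smul_zero, Finset.sum_const_zero]
  let h : (Module.Free.ChooseBasisIndex T M → 𝒪) →ₗ[𝒪] N := (i ∘ₗ g).codRestrict N hgN
  have hh : Function.Injective h := fun a a' haa => hg (hinj (congrArg Subtype.val haa))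
  have hxN : x ∈ N := by
    rw [hN, Submodule.restrictScalars_mem, Submodule.mem_torsionBySet_iff]
    rintro ⟨t, ht⟩
    exact hx t (by simpa using ht)
  have : IsNoetherian 𝒪 M' := isNoetherian_of_isNoetherianRing_of_finite 𝒪 M'
  have : Module.Finite 𝒪 N := inferInstance
  have h0 : Module.finrank 𝒪 (N ⧸ LinearMap.range h) = 0 := by
    have h1 := Module.finrank_quotient_add_finrank_le (LinearMap.range h)
    rw [LinearMap.finrank_range_of_inj hh, Module.finrank_pi,
      ← Module.finrank_eq_card_chooseBasisIndex] at h1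
    omega
  obtain ⟨c, hc, hcx⟩ := Module.finrank_eq_zero_iff.mp h0 (Submodule.Quotient.mk ⟨x, hxN⟩)
  rw [← Submodule.Quotient.mk_smul, Submodule.Quotient.mk_eq_zero] at hcx
  obtain ⟨a, ha⟩ := hcx
  exact ⟨c, hc, g a, congrArg Subtype.val ha⟩

end Level

/-- If `η' ≤ d η` then `length (𝒪 / η) + ord d ≤ length (𝒪 / η')`. -/
theorem length_add_ord_le {η η' : Ideal 𝒪} {d : 𝒪} (h : η' ≤ Ideal.span {d} * η) :
    Module.length 𝒪 (𝒪 ⧸ η) + Ring.ord 𝒪 d ≤ Module.length 𝒪 (𝒪 ⧸ η') := by
  obtain ⟨a, rfl⟩ := (IsPrincipalIdealRing.principal η).principal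
  have h' : η' ≤ Ideal.span {d * a} := by
    rwa [← Ideal.span_singleton_mul_span_singleton]
  refine le_trans ?_ (Module.length_le_of_surjective _ (Submodule.factor_surjective h'))
  by_cases ha : a = 0
  · subst ha
    rw [mul_zero, ← Ring.ord, ord_zero_eq_top]
    exact le_top
  show Ring.ord 𝒪 a + Ring.ord 𝒪 d ≤ Ring.ord 𝒪 (d * a)
  rw [Ring.ord_mul 𝒪 (mem_nonZeroDivisors_of_ne_zero ha), add_comm]

/-- **Propagation of `R = T`**: if the cotangent space at the lower level is bounded by the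
congruence ideal, the cotangent space of `R'` grows by at most `ord (π Δ)`, and the congruence
ideal shrinks by at least `π Δ`, then `R' = T'`. -/
theorem bijective_of_level_change [IsAdicComplete (maximalIdeal 𝒪) 𝒪] {R R' T T' : Type}
    [CommRing R] [Algebra 𝒪 R] (πR : R →ₐ[𝒪] 𝒪)
    [CommRing R'] [IsLocalRing R'] [IsNoetherianRing R'] [Algebra 𝒪 R'] [CommRing T] [Algebra 𝒪 T]
    [CommRing T'] [Algebra 𝒪 T'] [Module.Finite 𝒪 T'] [Module.IsTorsionFree 𝒪 T'] [IsReduced T']
    (φ : R' →ₐ[𝒪] T') (hφ : Function.Surjective φ) (ρ : T' →ₐ[𝒪] T) (π : T →ₐ[𝒪] 𝒪) (Δ : T)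
    (hchange : congruenceIdeal (π.comp ρ) ≤ Ideal.span {π Δ} * congruenceIdeal π)
    (hlow : Module.length 𝒪 (RingHom.ker πR).Cotangent ≤
      Module.length 𝒪 (𝒪 ⧸ congruenceIdeal π))
    (hcot : Module.length 𝒪 (RingHom.ker ((π.comp ρ).comp φ)).Cotangent ≤
      Ring.ord 𝒪 (π Δ) + Module.length 𝒪 (RingHom.ker πR).Cotangent) :
    Function.Bijective φ :=
  bijective_of_length_le φ hφ (π.comp ρ) (congruenceIdeal_ne_bot _)
    (hcot.trans ((add_le_add le_rfl hlow).trans
      ((add_comm _ _).le.trans (length_add_ord_le hchange))))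

end Fermat.Agent.NumCrit
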